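import Fermat.Agent.S18.Level
import Fermat.Agent.Lib.FF.ConstExtExtend
import Fermat.Prelude.Def_AlgebraicCurve_Correspondence

/-!
# S37 (FE1): extensions `F'/F` of function fields over an algebraically closed field `K`:
finiteness and the fundamental identity `∑_{w | v} e(w | v) = [F' : F]`

* `fe_finite`: if `x ∈ F` is transcendental then so is its image, and `F'` is finite over `K(x)`
  (`IsFF.finiteDimensional`), a fortiori over `F`.
* `fe_fundamental`: let `x ∈ F` have `v` as only pole (`FFLib.ce3_exists_only_pole`), of order `n`.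
  Then `[F : K(x)] = n` and `[F' : K(x)] = ∑_{w | v} e(w | v) n` (`FFLib.degree_poleDiv`,
  `Place.ord_restrict`), and `[F' : K(x)] = [F : K(x)] [F' : F]` (`S18Lib.D2_tower`).
-/

set_option autoImplicit false

open AlgebraicCurve

namespace Fermat.Agent.S37Lib

open Fermat.Agent.S18Lib Fermat.Agent.S24Lib Fermat.Agent.FFLib

section Tower

variable {K F F' : Type*} [Field K] [Field F] [Field F'] [Algebra K F] [Algebra K F']
  [Algebra F F'] [IsScalarTower K F F']

theorem FEFund_transcendental {x : F} (hx : Transcendental K x) :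
    Transcendental K (algebraMap F F' x) :=
  (transcendental_algebraMap_iff (algebraMap F F').injective).mpr hx

open IntermediateField in
theorem fe_finite (hF : IsFF K F) (hF' : IsFF K F') : Module.Finite F F' := by
  obtain ⟨x, hx, -⟩ := hF
  have hy : Transcendental K (algebraMap F F' x) := FEFund_transcendental hx
  have hfin : FiniteDimensional K⟮algebraMap F F' x⟯ F' := hF'.finiteDimensional hy
  have h := D2_tower (K := K) (F₁ := F) (F₂ := F') x
  have hpos : 0 < Module.finrank K⟮algebraMap F F' x⟯ F' := Module.finrank_pos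
  rw [h] at hpos
  exact Module.finite_of_finrank_pos (Nat.pos_of_mul_pos_left hpos)

theorem fe_inertiaDeg [IsAlgClosed K] (hF : IsFF K F) (hF' : IsFF K F')
    [Algebra.IsIntegral F F'] (w : Place K F') : w.inertiaDeg F = 1 := by
  have h := w.deg_restrict_mul_inertiaDeg (F := F)
  rw [deg_eq_one hF, deg_eq_one hF', one_mul] at h
  exact h

open IntermediateField in
theorem fe_fundamental [IsAlgClosed K] (hF : IsFF K F) (hF' : IsFF K F')
    [Algebra.IsIntegral F F'] [HasPrincipalDivisors K F'] : FundamentalIdentity K F F' := by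
  classical
  constructor
  intro v
  obtain ⟨x, hxc, hx⟩ := ce3_exists_only_pole hF v
  have hxt : Transcendental K x := transcendental_of_not_mem_range hxc
  have hyt : Transcendental K (algebraMap F F' x) := FEFund_transcendental hxt
  have hfin : FiniteDimensional K⟮x⟯ F := hF.finiteDimensional hxt
  -- degree downstairs
  have h1 : Divisor.degree (poleDiv K x) = max (-v.ord x) 0 := by
    rw [degree_eq_sum hF (poleDiv K x) {v} ?_, Finset.sum_singleton, poleDiv_apply hF]
    intro Q hQ
    rw [Finsupp.mem_support_iff, poleDiv_apply hF] at hQ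
    rw [Finset.mem_singleton]
    by_contra hne
    exact hQ (max_eq_right (by have := hx Q hne; omega))
  rw [degree_poleDiv hF hxt] at h1
  have hnpos : 0 < Module.finrank K⟮x⟯ F := Module.finrank_pos
  have hn : -v.ord x = (Module.finrank K⟮x⟯ F : ℤ) := by
    rcases max_cases (-v.ord x) 0 with ⟨h, -⟩ | ⟨h, -⟩
    · rw [h1, h]
    · rw [h] at h1; omega
  -- degree upstairs
  have h2 : Divisor.degree (poleDiv K (algebraMap F F' x))
      = ∑ w ∈ v.fiber F', (w.ramificationIndex F : ℤ) * (Module.finrank K⟮x⟯ F : ℤ) := by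
    rw [degree_eq_sum hF' (poleDiv K (algebraMap F F' x)) (v.fiber F') ?_]
    · refine Finset.sum_congr rfl fun w hw => ?_
      rw [poleDiv_apply hF', w.ord_restrict x, Place.mem_fiber.mp hw, ← hn]
      have : (0 : ℤ) ≤ (w.ramificationIndex F : ℤ) * -v.ord x := by
        rw [hn]; positivity
      rw [max_eq_left (by linarith)]
      ring
    · intro w hw
      rw [Finsupp.mem_support_iff, poleDiv_apply hF', w.ord_restrict x] at hw
      rw [Place.mem_fiber]
      by_contra hne
      apply hw
      have := hx (w.restrict F) hne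
      exact max_eq_right (by
        have : (0 : ℤ) ≤ (w.ramificationIndex F : ℤ) * (w.restrict F).ord x := by positivity
        linarith)
  rw [degree_poleDiv hF' hyt, D2_tower (K := K) (F₁ := F) (F₂ := F') x, ← Finset.sum_mul] at h2
  have h3 : ∑ w ∈ v.fiber F', (w.ramificationIndex F : ℤ) = (Module.finrank F F' : ℤ) := by
    have hn0 : ((Module.finrank K⟮x⟯ F : ℕ) : ℤ) ≠ 0 := by exact_mod_cast hnpos.ne'
    apply mul_right_cancel₀ hn0
    rw [← h2]
    push_cast
    ring
  rw [deg_eq_one hF v, ← h3]
  simp only [Nat.cast_one, mul_one]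
  refine Finset.sum_congr rfl fun w _ => ?_
  rw [deg_eq_one hF' w]
  simp

theorem fe_pullback_nonneg [Algebra.IsIntegral F F'] [HasPrincipalDivisors K F']
    {D : Divisor K F} (hD : 0 ≤ D) : 0 ≤ Divisor.pullback F' D := by
  intro w
  rw [Divisor.pullback_apply]
  exact mul_nonneg (Int.natCast_nonneg _) (hD _)

theorem fe_pushforward_nonneg [Algebra.IsIntegral F F']
    {D : Divisor K F'} (hD : 0 ≤ D) : 0 ≤ Divisor.pushforward F D := by
  classical
  intro v
  rw [Divisor.pushforward_apply]
  refine Finset.sum_nonneg fun w _ => ?_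
  split_ifs
  · exact mul_nonneg (hD w) (Int.natCast_nonneg _)
  · exact le_rfl

end Tower

section Along

variable {K F F' : Type*} [Field K] [Field F] [Field F'] [Algebra K F] [Algebra K F']

theorem fe_finite_along (hF : IsFF K F) (hF' : IsFF K F') (φ : F →ₐ[K] F') : FiniteAlong K φ := by
  letI := algebraAlong φ
  haveI := isScalarTower_along φ
  exact fe_finite hF hF'

theorem fe_isIntegral_along (hF : IsFF K F) (hF' : IsFF K F') (φ : F →ₐ[K] F') :
    φ.toRingHom.IsIntegral := by
  letI := algebraAlong φ
  haveI := isScalarTower_along φ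
  haveI : Module.Finite F F' := fe_finite hF hF'
  intro x
  exact Algebra.IsIntegral.isIntegral (R := F) x

theorem fe_fundamental_along [IsAlgClosed K] (hF : IsFF K F) (hF' : IsFF K F') (φ : F →ₐ[K] F')
    (hφ : φ.toRingHom.IsIntegral) [HasPrincipalDivisors K F'] :
    FundamentalIdentityAlong K φ hφ := by
  letI := algebraAlong φ
  haveI := isScalarTower_along φ
  haveI := isIntegral_along φ hφ
  exact fe_fundamental hF hF'

theorem fe_pullbackAlong_nonneg (φ : F →ₐ[K] F') (hφ : φ.toRingHom.IsIntegral)
    [HasPrincipalDivisors K F'] {D : Divisor K F} (hD : 0 ≤ D) :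
    0 ≤ Divisor.pullbackAlong φ hφ D := by
  letI := algebraAlong φ
  haveI := isScalarTower_along φ
  haveI := isIntegral_along φ hφ
  exact fe_pullback_nonneg hD

theorem fe_pushforwardAlong_nonneg (φ : F →ₐ[K] F') (hφ : φ.toRingHom.IsIntegral)
    {D : Divisor K F'} (hD : 0 ≤ D) : 0 ≤ Divisor.pushforwardAlong φ hφ D := by
  letI := algebraAlong φ
  haveI := isScalarTower_along φ
  haveI := isIntegral_along φ hφ
  exact fe_pushforward_nonneg hD

/-- the pull-back of the divisor of `f` is the divisor of `φ f` -/
theorem fe_pullbackAlong_ord (φ : F →ₐ[K] F') (hφ : φ.toRingHom.IsIntegral)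
    [HasPrincipalDivisors K F'] {f : F} {D : Divisor K F} (hD : ∀ v, D v = v.ord f)
    (w : Place K F') : Divisor.pullbackAlong φ hφ D w = w.ord (φ f) := by
  letI := algebraAlong φ
  haveI := isScalarTower_along φ
  haveI := isIntegral_along φ hφ
  exact Divisor.pullback_apply_eq_ord hD w

end Along

end Fermat.Agent.S37Lib
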