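import Fermat.Agent.S18.Level
import Fermat.Agent.ES.Formal
import Fermat.Prelude.Def_ModularCurve_HeckeOperator

/-!
# S37 (HN3): the extension `α : F_N → F_{Nℓ}`: degree, generation by `β(F_N)`, generic elements

* `finrank_alpha`: `S18Lib.D2_degree`, `S20Lib.index_Gamma0`, `S20Lib.dedekindPsi_mul_of_not_dvd`
  (as at the end of `S18Lib.exists_level`); `heckeAlphaBar_eq_inclusion`.
* `eq_top_of_beta_mem`: `F_{Nℓ}` is generated over `ℚ̄` by the `j(q^d)`, `d ∣ N ℓ`, and `d ∣ N` or
  `d = ℓ d'` with `d' ∣ N`.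
* `exists_generic`: the extension is finite separable, so it has finitely many intermediate fields
  `L`; for `L ≠ ⊤` the sets `{h | β h ∈ L}` and `{h | β (f h) ∈ L}` are proper `ℚ̄`-subspaces of `F_N`,
  and a vector space over an infinite field is not a finite union of proper subspaces
  (`Subspace.biUnion_ne_univ_of_top_notMem`).
-/

set_option autoImplicit false
set_option synthInstance.maxHeartbeats 400000

open AlgebraicCurve ModularCurve CongruenceSubgroup

namespace Fermat.Agent.S37Lib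

open Fermat.Agent.S18Lib Fermat.Agent.S24Lib

theorem finrank_alpha (N ℓ : ℕ) [NeZero N] [NeZero ℓ] (hℓ : ℓ.Prime) (hℓN : ¬ ℓ ∣ N) :
    letI := algebraAlong (heckeAlphaBar Qb N ℓ)
    Module.finrank (FB N) (FB (N * ℓ)) = ℓ + 1 := by
  have hN0 : N ≠ 0 := NeZero.ne N
  have hle : FB N ≤ FB (N * ℓ) := FB_le_of_dvd (dvd_mul_right N ℓ)
  have hd := D2_degree hle
  have h1 : (Gamma0 (N * ℓ)).index = (Gamma0 N).index * (ℓ + 1) := by
    rw [Fermat.Agent.S20Lib.index_Gamma0 (N * ℓ), mul_comm N ℓ,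
      Fermat.Agent.S20Lib.dedekindPsi_mul_of_not_dvd hN0 hℓ hℓN,
      ← Fermat.Agent.S20Lib.index_Gamma0 N, mul_comm]
  rw [h1] at hd
  exact (Nat.eq_of_mul_eq_mul_left (Nat.pos_of_ne_zero (D2_index_ne_zero N)) hd).symm

/-- a subfield of `ℚ̄((q))` containing the constants and the `j(q^d)`, `d ∣ M`, contains `F_M` -/
theorem Generic_le_of_gen (M : ℕ) (S : Subfield (LaurentSeries Qb))
    (hc : ∀ a : Qb, algebraMap Qb (LaurentSeries Qb) a ∈ S)
    (hg : ∀ (d : ℕ) [NeZero d], d ∣ M → coeffEmb Qb (qExpand ℚ d jq) ∈ S)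
    {x : LaurentSeries Qb} (hx : x ∈ FB M) : x ∈ S := by
  have hx' : x ∈ laurentBaseChange Qb (modularFunctionFieldFull M) := hx
  rw [mem_laurentBaseChange_iff] at hx'
  have hle : Subfield.closure (Set.range (algebraMap Qb (LaurentSeries Qb)) ∪
      (⇑(coeffEmb Qb) '' (modularFunctionFieldFull M : Set (LaurentSeries ℚ)))) ≤ S := by
    rw [Subfield.closure_le]
    rintro y (⟨a, rfl⟩ | ⟨z, hz, rfl⟩)
    · exact hc a
    · have hz' : z ∈ IntermediateField.adjoin ℚ (divisorExpansions M) := hz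
      clear hz
      show coeffEmb Qb z ∈ S
      induction hz' using IntermediateField.adjoin_induction with
      | mem y hy =>
          obtain ⟨d, hd, hdM, rfl⟩ := hy
          exact hg d hdM
      | algebraMap r =>
          have : coeffEmb Qb (algebraMap ℚ (LaurentSeries ℚ) r)
              = algebraMap Qb (LaurentSeries Qb) (algebraMap ℚ Qb r) := by
            rw [algebraMap_laurentSeries_eq_single, algebraMap_laurentSeries_eq_single, coeffEmb,
              coeffMap_single]
          rw [this]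
          exact hc _
      | add x y _ _ hx hy => rw [map_add]; exact add_mem hx hy
      | inv x _ hx => rw [map_inv₀]; exact inv_mem hx
      | mul x y _ _ hx hy => rw [map_mul]; exact mul_mem hx hy
  exact hle hx'

theorem eq_top_of_beta_mem (N ℓ : ℕ) [NeZero N] [NeZero ℓ] (hℓ : ℓ.Prime) :
    letI := algebraAlong (heckeAlphaBar Qb N ℓ)
    ∀ L : IntermediateField (FB N) (FB (N * ℓ)),
      (∀ h : FB N, heckeBetaBar Qb N ℓ h ∈ L) → L = ⊤ := by
  letI := algebraAlong (heckeAlphaBar Qb N ℓ)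
  intro L hL
  rw [eq_top_iff]
  intro x _
  let S : Subfield (LaurentSeries Qb) := L.toSubfield.map (FB (N * ℓ)).val.toRingHom
  have key : (x : LaurentSeries Qb) ∈ S := by
    refine Generic_le_of_gen (N * ℓ) S ?_ ?_ x.2
    · intro a
      refine ⟨algebraMap (FB N) (FB (N * ℓ)) (algebraMap Qb (FB N) a), L.algebraMap_mem _, rfl⟩
    · intro d _ hd
      obtain ⟨d₁, d₂, h₁, h₂, rfl⟩ := (Nat.dvd_mul).mp hd
      have : NeZero d₁ := ⟨fun h => NeZero.ne N (by rw [h] at h₁; exact Nat.eq_zero_of_zero_dvd h₁)⟩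
      have hy : coeffEmb Qb (qExpand ℚ d₁ jq) ∈ FB N :=
        coeffEmb_mem_laurentBaseChange Qb (jqd_mem_full N h₁)
      rcases (Nat.dvd_prime hℓ).mp h₂ with rfl | rfl
      · refine ⟨algebraMap (FB N) (FB (N * ℓ)) ⟨_, hy⟩, L.algebraMap_mem _, ?_⟩
        show coeffEmb Qb (qExpand ℚ d₁ jq) = coeffEmb Qb (qExpand ℚ (d₁ * 1) jq)
        rw [qExpand_congr (mul_one d₁)]
      · refine ⟨heckeBetaBar Qb N d₂ ⟨_, hy⟩, hL _, ?_⟩
        show qExpand Qb d₂ (coeffEmb Qb (qExpand ℚ d₁ jq)) = coeffEmb Qb (qExpand ℚ (d₁ * d₂) jq)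
        rw [coeffEmb, ← Fermat.Agent.ESLib.coeffMap_qExpand'', qExpand_qExpand,
          qExpand_congr (mul_comm d₂ d₁)]
  obtain ⟨y, hy, hyx⟩ := key
  have : y = x := Subtype.ext hyx
  rw [← this]
  exact hy

/-- abstract form of `exists_generic` -/
theorem Generic_abs {K F E : Type*} [Field K] [Infinite K] [Field F] [Field E] [Algebra K F]
    [Algebra F E] [Algebra K E] [IsScalarTower K F E] [FiniteDimensional F E]
    [Algebra.IsSeparable F E] (β : F →ₐ[K] E)
    (hβ : ∀ L : IntermediateField F E, (∀ h : F, β h ∈ L) → L = ⊤) (f : F) (hf : f ≠ 0) :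
    ∃ h : F, h ≠ 0 ∧ IntermediateField.adjoin F {β h} = ⊤ ∧
      IntermediateField.adjoin F {β (f * h)} = ⊤ := by
  classical
  have hfin : Finite (IntermediateField F E) :=
    Field.finite_intermediateField_of_exists_primitive_element _ _
      (Field.exists_primitive_element F E)
  have := Fintype.ofFinite (IntermediateField F E)
  let W : F → IntermediateField F E → Subspace K F := fun g L =>
    { carrier := {h | β (g * h) ∈ L}
      zero_mem' := by
        show β (g * 0) ∈ L
        rw [mul_zero, map_zero]; exact zero_mem L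
      add_mem' := by
        intro a b ha hb
        show β (g * (a + b)) ∈ L
        rw [mul_add, map_add]; exact add_mem ha hb
      smul_mem' := by
        intro c a ha
        show β (g * (c • a)) ∈ L
        rw [mul_smul_comm, map_smul, Algebra.smul_def]
        refine mul_mem ?_ ha
        rw [IsScalarTower.algebraMap_apply K F E]
        exact L.algebraMap_mem _ }
  have hW : ∀ g : F, g ≠ 0 → ∀ L, L ≠ ⊤ → W g L ≠ ⊤ := by
    intro g hg L hL hWt
    apply hL
    refine hβ L fun h => ?_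
    have : g⁻¹ * h ∈ W g L := by rw [hWt]; trivial
    have h2 : β (g * (g⁻¹ * h)) ∈ L := this
    rwa [mul_inv_cancel_left₀ hg] at h2
  let T : Finset (IntermediateField F E) := Finset.univ.filter fun L => L ≠ ⊤
  let s : Finset (Subspace K F) := insert ⊥ (T.image (W 1) ∪ T.image (W f))
  have hs : ⊤ ∉ s := by
    intro h
    rw [Finset.mem_insert, Finset.mem_union, Finset.mem_image, Finset.mem_image] at h
    rcases h with h | ⟨L, hL, h⟩ | ⟨L, hL, h⟩
    · exact top_ne_bot h
    · exact hW 1 one_ne_zero L (Finset.mem_filter.mp hL).2 h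
    · exact hW f hf L (Finset.mem_filter.mp hL).2 h
  have hne := Subspace.biUnion_ne_univ_of_top_notMem hs
  obtain ⟨h, hh⟩ : ∃ h : F, h ∉ ⋃ p ∈ s, (p : Set F) := by
    by_contra hcon
    push Not at hcon
    exact hne (Set.eq_univ_of_forall hcon)
  simp only [Set.mem_iUnion, not_exists] at hh
  refine ⟨h, ?_, ?_, ?_⟩
  · rintro rfl
    exact hh ⊥ (Finset.mem_insert_self _ _) (zero_mem _)
  · by_contra hL
    refine hh (W 1 _) (Finset.mem_insert_of_mem (Finset.mem_union_left _
      (Finset.mem_image_of_mem _ (Finset.mem_filter.mpr ⟨Finset.mem_univ _, hL⟩)))) ?_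
    show β (1 * h) ∈ IntermediateField.adjoin F {β h}
    rw [one_mul]
    exact IntermediateField.mem_adjoin_simple_self _ _
  · by_contra hL
    refine hh (W f _) (Finset.mem_insert_of_mem (Finset.mem_union_right _
      (Finset.mem_image_of_mem _ (Finset.mem_filter.mpr ⟨Finset.mem_univ _, hL⟩)))) ?_
    exact IntermediateField.mem_adjoin_simple_self _ _

theorem exists_generic (N ℓ : ℕ) [NeZero N] [NeZero ℓ] (hℓ : ℓ.Prime) (hℓN : ¬ ℓ ∣ N)
    (f : FB N) (hf : f ≠ 0) :
    letI := algebraAlong (heckeAlphaBar Qb N ℓ)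
    ∃ h : FB N, h ≠ 0 ∧
      IntermediateField.adjoin (FB N) {heckeBetaBar Qb N ℓ h} = ⊤ ∧
      IntermediateField.adjoin (FB N) {heckeBetaBar Qb N ℓ (f * h)} = ⊤ := by
  letI := algebraAlong (heckeAlphaBar Qb N ℓ)
  haveI := isScalarTower_along (heckeAlphaBar Qb N ℓ)
  have hfr := finrank_alpha N ℓ hℓ hℓN
  haveI hfd : FiniteDimensional (FB N) (FB (N * ℓ)) :=
    Module.finite_of_finrank_pos (by rw [hfr]; exact Nat.succ_pos _)
  haveI : CharZero (FB N) := charZero_of_injective_algebraMap (algebraMap Qb (FB N)).injective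
  haveI : Algebra.IsSeparable (FB N) (FB (N * ℓ)) := Algebra.IsAlgebraic.isSeparable_of_perfectField
  exact Generic_abs (heckeBetaBar Qb N ℓ) (eq_top_of_beta_mem N ℓ hℓ) f hf

end Fermat.Agent.S37Lib
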