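import Mathlib

/-!
# S37 (HN2): a polynomial over `L` whose values at the constants of an infinite subfield `K` lie in an
intermediate field `F` has its coefficients in `F` (Lagrange interpolation, `Lagrange.interpolate`,
`Lagrange.eq_interpolate_of_eval_eq`)
-/

set_option autoImplicit false

namespace Fermat.Agent.S37Lib

theorem exists_map_eq_of_eval_mem {K L : Type*} [Field K] [Infinite K] [Field L] [Algebra K L]
    (F : IntermediateField K L) (P : Polynomial L)
    (h : ∀ c : K, P.eval (algebraMap K L c) ∈ F) :
    ∃ P₀ : Polynomial F, P₀.map (algebraMap F L) = P := by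
  classical
  obtain ⟨s, hs⟩ := Infinite.exists_subset_card_eq K (P.natDegree + 1)
  -- nodes and values in `F`
  let v : K → F := fun c => algebraMap K F c
  let r : K → F := fun c => ⟨P.eval (algebraMap K L c), h c⟩
  have hvF : Set.InjOn v s := fun a _ b _ hab => (algebraMap K F).injective hab
  have hvL : Set.InjOn (fun c : K => algebraMap K L c) s :=
    fun a _ b _ hab => (algebraMap K L).injective hab
  refine ⟨Lagrange.interpolate s v r, ?_⟩
  have hdeg : P.degree < s.card := by
    rw [hs]
    exact lt_of_le_of_lt Polynomial.degree_le_natDegree (by exact_mod_cast Nat.lt_succ_self _)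
  have h1 := Lagrange.eq_interpolate_of_eval_eq (s := s) (v := fun c : K => algebraMap K L c)
    (r := fun c => P.eval (algebraMap K L c)) hvL hdeg (fun i _ => rfl)
  rw [h1]
  simp only [Lagrange.interpolate_apply, Polynomial.map_sum, Polynomial.map_mul, Polynomial.map_C]
  refine Finset.sum_congr rfl fun i _ => ?_
  congr 1
  simp only [Lagrange.basis, Polynomial.map_prod, Lagrange.basisDivisor, Polynomial.map_mul,
    Polynomial.map_C, Polynomial.map_sub, Polynomial.map_X, map_inv₀, map_sub]
  rfl

theorem coeff_mem_of_eval_mem {K L : Type*} [Field K] [Infinite K] [Field L] [Algebra K L]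
    (F : IntermediateField K L) (P : Polynomial L)
    (h : ∀ c : K, P.eval (algebraMap K L c) ∈ F) (i : ℕ) : P.coeff i ∈ F := by
  obtain ⟨P₀, rfl⟩ := exists_map_eq_of_eval_mem F P h
  rw [Polynomial.coeff_map]
  exact (P₀.coeff i).2

end Fermat.Agent.S37Lib
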