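import Fermat.Agent.S37.HeckePoly
import Fermat.Agent.S37.Interp
import Fermat.Agent.S37.Generic
import Fermat.Agent.ES.Rt
import Fermat.Agent.ES.RtHecke
import Fermat.Agent.ES.Integral

/-!
# S37 (HN4): `N_{α}(β f) = heckeMul ℓ f`

* `heckeMul_mem`: `Rt.pow_self 1`, `Rt.hecke` with `φ = φ' = 0` (`IsTr N ℓ 0 0` is trivial).
* `norm_heckeBeta_of_generic`: let `P` be the Hecke polynomial of `f` (`exists_heckePoly`).  Its values
  at the constants are `heckeMul ℓ (c - f) ∈ F_N`, so `P = P₀.map _` with `P₀ ∈ F_N[X]`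
  (`exists_map_eq_of_eval_mem`), monic of degree `ℓ + 1 = [F_{Nℓ} : F_N]` with root `β f`.  If
  `F_{Nℓ} = F_N(β f)` then `P₀ = minpoly`, and `N(β f) = (-1)^(ℓ+1) P₀(0) = (-1)^(ℓ+1) heckeMul ℓ (-f)
  = heckeMul ℓ f` (`heckeMul_mul`, `heckeMul_C`).
* `norm_heckeBeta`: `f = (f h) / h` with `h`, `f h` generic (`exists_generic`); both sides are
  multiplicative.
-/

set_option autoImplicit false
set_option synthInstance.maxHeartbeats 400000

open AlgebraicCurve ModularCurve CongruenceSubgroup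

namespace Fermat.Agent.S37Lib

open Fermat.Agent.S18Lib Fermat.Agent.S24Lib Fermat.Agent.ESLib

theorem heckeMul_mem (N ℓ : ℕ) [NeZero N] [NeZero ℓ] (hℓ : ℓ.Prime) (hℓN : ¬ ℓ ∣ N) (y : FB N) :
    heckeMul ℓ (y : LaurentSeries Qb) ∈ FB N := by
  by_cases hy : y = 0
  · subst hy
    have : heckeMul ℓ (((0 : FB N) : LaurentSeries Qb)) = 0 := by
      unfold heckeMul
      rw [ZeroMemClass.coe_zero, map_zero, zero_mul]
    rw [this]
    exact zero_mem _
  · have h1 : Rt N 1 (y ^ 1) 0 := Rt.pow_self 1 hy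
    have hT : IsTr N ℓ (0 : Additive (Gamma0 N) →+ ℤ) 0 := by
      intro γ γ' _
      simp
    obtain ⟨f', hf', -⟩ := Rt.hecke hℓ hℓN (zero_mem (EP N ℤ)) h1 hT
    rw [pow_one] at hf'
    rw [← hf']
    exact f'.2

theorem NormBeta_abs {F E : Type*} [Field F] [Field E] [Algebra F E] [FiniteDimensional F E]
    (x : E) (hx : IntermediateField.adjoin F {x} = ⊤) (P₀ : Polynomial F) (hm : P₀.Monic)
    (hd : P₀.natDegree = Module.finrank F E) (h0 : Polynomial.aeval x P₀ = 0) :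
    Algebra.norm F x = (-1) ^ P₀.natDegree * P₀.coeff 0 := by
  have hint : IsIntegral F x := IsIntegral.of_finite F x
  have hdeg : (minpoly F x).natDegree = Module.finrank F E := by
    rw [← IntermediateField.adjoin.finrank hint, hx, IntermediateField.finrank_top']
  have hP : P₀ = minpoly F x := by
    have hdvd := minpoly.dvd F x h0
    exact Polynomial.eq_of_monic_of_dvd_of_natDegree_le (minpoly.monic hint) hm hdvd
      (by rw [hd, hdeg])
  let pb : PowerBasis F E := (IntermediateField.adjoin.powerBasis hint).map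
    ((IntermediateField.equivOfEq hx).trans IntermediateField.topEquiv)
  have hgen : pb.gen = x := by
    simp [pb]
  have h := Algebra.PowerBasis.norm_gen_eq_coeff_zero_minpoly pb
  rw [hgen, ← pb.natDegree_minpoly, hgen, ← hP] at h
  exact h

/-- `heckeMul ℓ (-f) = (-1)^(ℓ+1) heckeMul ℓ f` -/
theorem NormBeta_neg (ℓ : ℕ) [NeZero ℓ] (f : LaurentSeries Qb) :
    heckeMul ℓ (-f) = (-1) ^ (ℓ + 1) * heckeMul ℓ f := by
  obtain ⟨ζ, hζ⟩ := exists_primitiveRoot_Qb ℓ
  have h1 : -f = HahnSeries.C (-1 : Qb) * f := by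
    rw [map_neg, map_one, neg_one_mul]
  have hcard : Nat.card (rootsOfUnity ℓ Qb) = ℓ := hζ.card_rootsOfUnity
  rw [h1, heckeMul_mul ℓ ⟨ζ, hζ⟩, heckeMul_C, hcard, ← pow_succ', map_pow, map_neg, map_one]

theorem norm_heckeBeta_of_generic (N ℓ : ℕ) [NeZero N] [NeZero ℓ] (hℓ : ℓ.Prime) (hℓN : ¬ ℓ ∣ N)
    (f : FB N) :
    letI := algebraAlong (heckeAlphaBar Qb N ℓ)
    IntermediateField.adjoin (FB N) {heckeBetaBar Qb N ℓ f} = ⊤ →
    ((Algebra.norm (FB N) (heckeBetaBar Qb N ℓ f) : FB N) : LaurentSeries Qb)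
      = heckeMul ℓ (f : LaurentSeries Qb) := by
  letI := algebraAlong (heckeAlphaBar Qb N ℓ)
  intro hgen
  have hfr := finrank_alpha N ℓ hℓ hℓN
  haveI hfd : FiniteDimensional (FB N) (FB (N * ℓ)) :=
    Module.finite_of_finrank_pos (by rw [hfr]; exact Nat.succ_pos _)
  obtain ⟨P, hPm, hPd, hPc, hP0⟩ := exists_heckePoly ℓ (exists_primitiveRoot_Qb ℓ)
    (f : LaurentSeries Qb)
  have hval : ∀ c : Qb, P.eval (algebraMap Qb (LaurentSeries Qb) c) ∈ FB N := by
    intro c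
    have e : algebraMap Qb (LaurentSeries Qb) c = HahnSeries.C c := by
      rw [algebraMap_laurentSeries_eq_single]; rfl
    rw [e, hPc, ← e]
    exact heckeMul_mem N ℓ hℓ hℓN (algebraMap Qb (FB N) c - f)
  obtain ⟨P₀, hP₀⟩ := exists_map_eq_of_eval_mem (FB N) P hval
  have hinj : Function.Injective (algebraMap (FB N) (LaurentSeries Qb)) :=
    (algebraMap (FB N) (LaurentSeries Qb)).injective
  have hm : P₀.Monic := by
    rw [← hP₀] at hPm
    exact Polynomial.monic_of_injective hinj hPm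
  have hd : P₀.natDegree = ℓ + 1 := by
    rw [← hPd, ← hP₀, Polynomial.natDegree_map]
  have h0 : Polynomial.aeval (heckeBetaBar Qb N ℓ f) P₀ = 0 := by
    apply Subtype.ext
    have e1 : ((Polynomial.aeval (heckeBetaBar Qb N ℓ f) P₀ : FB (N * ℓ)) : LaurentSeries Qb)
        = (FB (N * ℓ)).val.toRingHom (Polynomial.aeval (heckeBetaBar Qb N ℓ f) P₀) := rfl
    rw [e1, Polynomial.aeval_def, Polynomial.hom_eval₂]
    have e2 : (FB (N * ℓ)).val.toRingHom.comp (algebraMap (FB N) (FB (N * ℓ)))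
        = algebraMap (FB N) (LaurentSeries Qb) := rfl
    rw [e2, ← Polynomial.eval_map, hP₀]
    exact hP0
  have key := NormBeta_abs _ hgen P₀ hm (hd.trans hfr.symm) h0
  rw [key, hd]
  have e3 : (((-1) ^ (ℓ + 1) * P₀.coeff 0 : FB N) : LaurentSeries Qb)
      = (-1) ^ (ℓ + 1) * P.coeff 0 := by
    rw [← hP₀, Polynomial.coeff_map]
    rfl
  rw [e3, Polynomial.coeff_zero_eq_eval_zero]
  have e4 : P.eval 0 = heckeMul ℓ (-(f : LaurentSeries Qb)) := by
    have := hPc 0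
    rwa [map_zero, zero_sub] at this
  rw [e4, NormBeta_neg, ← mul_assoc, ← mul_pow, neg_one_mul, neg_neg, one_pow, one_mul]

theorem norm_heckeBeta (N ℓ : ℕ) [NeZero N] [NeZero ℓ] (hℓ : ℓ.Prime) (hℓN : ¬ ℓ ∣ N)
    (f : FB N) (hf : f ≠ 0) :
    letI := algebraAlong (heckeAlphaBar Qb N ℓ)
    ((Algebra.norm (FB N) (heckeBetaBar Qb N ℓ f) : FB N) : LaurentSeries Qb)
      = heckeMul ℓ (f : LaurentSeries Qb) := by
  letI := algebraAlong (heckeAlphaBar Qb N ℓ)
  obtain ⟨h, hh, g1, g2⟩ := exists_generic N ℓ hℓ hℓN f hf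
  have n1 := norm_heckeBeta_of_generic N ℓ hℓ hℓN h g1
  have n2 := norm_heckeBeta_of_generic N ℓ hℓ hℓN (f * h) g2
  rw [map_mul, map_mul, MulMemClass.coe_mul, MulMemClass.coe_mul,
    heckeMul_mul ℓ (exists_primitiveRoot_Qb ℓ), n1] at n2
  have hne : heckeMul ℓ (h : LaurentSeries Qb) ≠ 0 := by
    rw [← n1]
    intro h0
    have h1 : Algebra.norm (FB N) (heckeBetaBar Qb N ℓ h) = 0 := Subtype.ext h0
    have hfr := finrank_alpha N ℓ hℓ hℓN
    haveI hfd : FiniteDimensional (FB N) (FB (N * ℓ)) :=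
      Module.finite_of_finrank_pos (by rw [hfr]; exact Nat.succ_pos _)
    rw [Algebra.norm_eq_zero_iff] at h1
    exact hh ((map_eq_zero _).mp h1)
  exact mul_right_cancel₀ hne n2

end Fermat.Agent.S37Lib
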