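import Fermat.Agent.S37.FEFund
import Fermat.Agent.Lib.FF.LocalTrace
import Fermat.Agent.Lib.FF.Approx

/-!
# S37 (FE2): the norm formula `∑_{w | v} ord_w f = ord_v (N_{F'/F} f)` for an extension of function
fields over an algebraically closed field of characteristic zero

Let `λ f = ord_v (N f)`.
1. (`fe_norm_nonneg`, `fe_norm_pos`; same technique as `FFLib.ord_trace_pos`)  Let `w₀ | v`, let `O'`
   be a valuation ring of `Ω = AlgebraicClosure F'` dominating `O_{w₀}` (`FFLib.lt_exists_extension`).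
   `N f = ∏_σ σ f` (`Algebra.norm_eq_prod_embeddings`); for each `σ : F' →ₐ[F] Ω`, `O'.comap σ` is
   (the valuation ring of) a place above `v` (`FFLib.exists_place_of_valuationSubring`).  So if
   `ord_w f ≥ 0` for all `w | v` then `λ f ≥ 0`, and `λ f > 0` if moreover `ord_{w₀} f > 0`.
2. choose `t_w` (`FFLib.weak_approximation`) with `ord_w t_w = 1`, `ord_{w'} t_w = 0` for the other
   `w' | v`.  Then `f / ∏ t_w ^ ord_w f` has `λ = 0` by 1., so `λ f = ∑_w ord_w f * λ t_w`, `λ t_w ≥ 1`.
3. for a uniformizer `π` of `v`: `λ π = [F' : F] = ∑ e_w` (`Algebra.norm_algebraMap`,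
   `fe_fundamental`) and `λ π = ∑ e_w λ t_w`; hence `λ t_w = 1` for all `w`.
-/

set_option autoImplicit false

open AlgebraicCurve

namespace Fermat.Agent.S37Lib

open Fermat.Agent.S18Lib Fermat.Agent.S24Lib Fermat.Agent.FFLib

section Tower

variable {K F F' : Type*} [Field K] [Field F] [Field F'] [Algebra K F] [Algebra K F']
  [Algebra F F'] [IsScalarTower K F F']

omit [Field F'] [Algebra K F'] [Algebra F F'] [IsScalarTower K F F'] in
theorem FENorm_nonneg_of_mem {Ω : Type*} [Field Ω] [Algebra F Ω] (v : Place K F)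
    (O' : ValuationSubring Ω)
    (hO2 : ∀ x : F, 0 < v.ord x → O'.valuation (algebraMap F Ω x) < 1) {x : F}
    (h : algebraMap F Ω x ∈ O') : 0 ≤ v.ord x := by
  by_contra hneg
  push Not at hneg
  have hx0 : x ≠ 0 := by rintro rfl; simp at hneg
  have h1 := hO2 x⁻¹ (by rw [v.ord_inv]; omega)
  rw [lt_valuation_lt_one_iff O' ((_root_.map_ne_zero _).2 (inv_ne_zero hx0)), map_inv₀,
    inv_inv] at h1
  exact h1 h

omit [Field F'] [Algebra K F'] [Algebra F F'] [IsScalarTower K F F'] in
theorem FENorm_pos_of_lt {Ω : Type*} [Field Ω] [Algebra F Ω] (v : Place K F)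
    (O' : ValuationSubring Ω)
    (hO1 : ∀ x : F, 0 ≤ v.ord x → algebraMap F Ω x ∈ O') {x : F} (hx0 : x ≠ 0)
    (h : O'.valuation (algebraMap F Ω x) < 1) : 0 < v.ord x := by
  by_contra hneg
  push Not at hneg
  rw [lt_valuation_lt_one_iff O' ((_root_.map_ne_zero _).2 hx0), ← map_inv₀] at h
  exact h (hO1 _ (by rw [v.ord_inv]; omega))

/-- the place of `F'` above `v` cut out by an embedding `σ` and a valuation ring dominating `v` -/
theorem FENorm_conj {Ω : Type*} [Field Ω] [Algebra F Ω] (hF' : IsFF K F')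
    [Algebra.IsIntegral F F'] (v : Place K F) (O' : ValuationSubring Ω)
    (hO1 : ∀ x : F, 0 ≤ v.ord x → algebraMap F Ω x ∈ O')
    (hO2 : ∀ x : F, 0 < v.ord x → O'.valuation (algebraMap F Ω x) < 1) (σ : F' →ₐ[F] Ω) :
    ∃ Q : Place K F', Q.restrict F = v ∧ ∀ x : F', 0 ≤ Q.ord x ↔ σ x ∈ O' := by
  have hK : ∀ a : K, algebraMap K F' a ∈ O'.comap (σ : F' →+* Ω) := by
    intro a
    rw [ValuationSubring.mem_comap]
    change σ (algebraMap K F' a) ∈ O'
    rw [IsScalarTower.algebraMap_apply K F F', σ.commutes]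
    exact hO1 _ (by rw [ord_algebraMap])
  have hO : O'.comap (σ : F' →+* Ω) ≠ ⊤ := by
    intro htop
    obtain ⟨π, hπ⟩ := exists_ord_eq_one v
    have hπ0 : π ≠ 0 := by rintro rfl; simp at hπ
    have h1 : algebraMap F F' π⁻¹ ∈ O'.comap (σ : F' →+* Ω) := htop ▸ ValuationSubring.mem_top _
    rw [ValuationSubring.mem_comap] at h1
    change σ (algebraMap F F' π⁻¹) ∈ O' at h1
    rw [σ.commutes] at h1
    have h2 := FENorm_nonneg_of_mem v O' hO2 h1
    rw [v.ord_inv, hπ] at h2
    omega
  obtain ⟨Q, hQ⟩ := exists_place_of_valuationSubring hF' _ hK hO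
  have hmem : ∀ x : F', 0 ≤ Q.ord x ↔ σ x ∈ O' := by
    intro x
    rw [← mem_valuationSubring_iff, hQ, ValuationSubring.mem_comap]
    rfl
  refine ⟨Q, ?_, hmem⟩
  symm
  apply place_ext_of_ord
  intro f hf
  rw [← mem_valuationSubring_iff, Place.mem_restrict_iff, mem_valuationSubring_iff, hmem,
    σ.commutes]
  exact hO1 f hf

theorem fe_norm_nonneg [CharZero K] (hF' : IsFF K F') [Module.Finite F F'] (v : Place K F)
    (f : F') (hf : ∀ w : Place K F', w.restrict F = v → 0 ≤ w.ord f) :
    0 ≤ v.ord (Algebra.norm F f) := by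
  haveI : CharZero F := charZero_of_injective_algebraMap (algebraMap K F).injective
  obtain ⟨O', hO1, hO2⟩ := lt_exists_extension v (AlgebraicClosure F')
  have hmem : algebraMap F (AlgebraicClosure F') (Algebra.norm F f) ∈ O' := by
    rw [Algebra.norm_eq_prod_embeddings F (AlgebraicClosure F')]
    refine prod_mem ?_
    intro σ _
    obtain ⟨Q, hQv, hQ⟩ := FENorm_conj hF' v O' hO1 hO2 σ
    exact (hQ f).mp (hf Q hQv)
  exact FENorm_nonneg_of_mem v O' hO2 hmem

theorem fe_norm_pos [CharZero K] (hF' : IsFF K F') [Module.Finite F F'] (v : Place K F)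
    (f : F') (hf0 : f ≠ 0) (hf : ∀ w : Place K F', w.restrict F = v → 0 ≤ w.ord f)
    (w₀ : Place K F') (hw₀ : w₀.restrict F = v) (hpos : 0 < w₀.ord f) :
    0 < v.ord (Algebra.norm F f) := by
  classical
  haveI : CharZero F := charZero_of_injective_algebraMap (algebraMap K F).injective
  obtain ⟨O', hO1', hO2'⟩ := lt_exists_extension w₀ (AlgebraicClosure F')
  have he : 0 < w₀.ramificationIndex F := w₀.ramificationIndex_pos
  have hO1 : ∀ x : F, 0 ≤ v.ord x → algebraMap F (AlgebraicClosure F') x ∈ O' := by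
    intro x hx
    rw [IsScalarTower.algebraMap_apply F F' (AlgebraicClosure F')]
    apply hO1'
    rw [w₀.ord_restrict x, hw₀]
    positivity
  have hO2 : ∀ x : F, 0 < v.ord x → O'.valuation (algebraMap F (AlgebraicClosure F') x) < 1 := by
    intro x hx
    rw [IsScalarTower.algebraMap_apply F F' (AlgebraicClosure F')]
    apply hO2'
    rw [w₀.ord_restrict x, hw₀]
    positivity
  have hlt : O'.valuation (algebraMap F (AlgebraicClosure F') (Algebra.norm F f)) < 1 := by
    rw [Algebra.norm_eq_prod_embeddings F (AlgebraicClosure F'),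
      ← Finset.mul_prod_erase Finset.univ _
        (Finset.mem_univ (IsScalarTower.toAlgHom F F' (AlgebraicClosure F'))), map_mul, mul_comm]
    have h1 : ∏ σ ∈ Finset.univ.erase (IsScalarTower.toAlgHom F F' (AlgebraicClosure F')), σ f
        ∈ O' := by
      refine prod_mem ?_
      intro σ _
      obtain ⟨Q, hQv, hQ⟩ := FENorm_conj hF' v O' hO1 hO2 σ
      exact (hQ f).mp (hf Q hQv)
    calc _ ≤ 1 * O'.valuation ((IsScalarTower.toAlgHom F F' (AlgebraicClosure F')) f) :=
          mul_le_mul_left ((O'.valuation_le_one_iff _).mpr h1) _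
      _ = O'.valuation ((IsScalarTower.toAlgHom F F' (AlgebraicClosure F')) f) := one_mul _
      _ < 1 := hO2' f hpos
  exact FENorm_pos_of_lt v O' hO1 (Algebra.norm_ne_zero_iff.mpr hf0) hlt

omit [Field F] [Algebra K F] [Algebra F F'] [IsScalarTower K F F'] in
theorem FENorm_ord_prod_zpow (w : Place K F') {ι : Type*} (S : Finset ι) (t : ι → F')
    (ht : ∀ i ∈ S, t i ≠ 0) (n : ι → ℤ) :
    w.ord (∏ i ∈ S, t i ^ n i) = ∑ i ∈ S, n i * w.ord (t i) := by
  classical
  induction S using Finset.induction_on with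
  | empty => simp
  | insert a S ha ih =>
    rw [Finset.prod_insert ha, Finset.sum_insert ha,
      w.ord_mul (zpow_ne_zero _ (ht a (Finset.mem_insert_self _ _)))
        (Finset.prod_ne_zero_iff.mpr fun i hi =>
          zpow_ne_zero _ (ht i (Finset.mem_insert_of_mem hi))),
      w.ord_zpow, ih fun i hi => ht i (Finset.mem_insert_of_mem hi)]

/-- the norm as a monoid-with-zero homomorphism -/
noncomputable def FENorm_norm0 (F F' : Type*) [Field F] [Field F'] [Algebra F F']
    [Module.Finite F F'] : F' →*₀ F :=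
  { Algebra.norm F with map_zero' := Algebra.norm_zero }

omit [Field K] [Algebra K F] [Algebra K F'] [IsScalarTower K F F'] in
theorem FENorm_norm_inv [Module.Finite F F'] (x : F') :
    Algebra.norm F x⁻¹ = (Algebra.norm F x)⁻¹ := map_inv₀ (FENorm_norm0 F F') x

omit [Field K] [Algebra K F] [Algebra K F'] [IsScalarTower K F F'] in
theorem FENorm_norm_zpow [Module.Finite F F'] (x : F') (n : ℤ) :
    Algebra.norm F (x ^ n) = (Algebra.norm F x) ^ n := map_zpow₀ (FENorm_norm0 F F') x n

omit [Algebra K F'] [IsScalarTower K F F'] in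
theorem FENorm_lam_prod_zpow [Module.Finite F F'] (v : Place K F) {ι : Type*} (S : Finset ι)
    (t : ι → F') (ht : ∀ i ∈ S, t i ≠ 0) (n : ι → ℤ) :
    v.ord (Algebra.norm F (∏ i ∈ S, t i ^ n i)) = ∑ i ∈ S, n i * v.ord (Algebra.norm F (t i)) := by
  rw [map_prod]
  simp only [FENorm_norm_zpow]
  exact FENorm_ord_prod_zpow v S (fun i => Algebra.norm F (t i))
    (fun i hi => Algebra.norm_ne_zero_iff.mpr (ht i hi)) n

theorem fe_norm [IsAlgClosed K] [CharZero K] (hF : IsFF K F) (hF' : IsFF K F')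
    [Module.Finite F F'] : Divisor.PushforwardNormFormula K F F' := by
  classical
  haveI := hasPrincipalDivisors hF'
  intro f hf D hD v
  set S : Finset (Place K F') := v.fiber F' with hS
  -- local parameters
  have hex : ∀ w : Place K F', ∃ t : F', w ∈ S → (t ≠ 0 ∧ ∀ w' ∈ S, w'.ord t = if w' = w then 1 else 0) := by
    intro w
    obtain ⟨z, hz⟩ := weak_approximation S (fun _ => 0) (fun w' => if w' = w then 1 else 0)
    refine ⟨z, fun hw => ⟨?_, fun w' hw' => ?_⟩⟩
    · simpa using (hz w hw).1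
    · simpa using (hz w' hw').2
  choose t ht using hex
  have ht0 : ∀ w ∈ S, t w ≠ 0 := fun w hw => (ht w hw).1
  -- the general formula
  have key : ∀ g : F', g ≠ 0 → v.ord (Algebra.norm F g)
      = ∑ w ∈ S, w.ord g * v.ord (Algebra.norm F (t w)) := by
    intro g hg
    set P : F' := ∏ w ∈ S, t w ^ w.ord g with hP
    have hP0 : P ≠ 0 := Finset.prod_ne_zero_iff.mpr fun w hw => zpow_ne_zero _ (ht0 w hw)
    have hordP : ∀ w' ∈ S, w'.ord P = w'.ord g := by
      intro w' hw'
      rw [hP, FENorm_ord_prod_zpow w' S t ht0]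
      rw [Finset.sum_eq_single w']
      · rw [(ht w' hw').2 w' hw', if_pos rfl, mul_one]
      · intro w hw hne
        rw [(ht w hw).2 w' hw', if_neg (Ne.symm hne), mul_zero]
      · intro h; exact absurd hw' h
    have h1 : 0 ≤ v.ord (Algebra.norm F (g * P⁻¹)) := by
      apply fe_norm_nonneg hF' v
      intro w hw
      rw [w.ord_mul hg (inv_ne_zero hP0), w.ord_inv, hordP w (Place.mem_fiber.mpr hw)]
      omega
    have h2 : 0 ≤ v.ord (Algebra.norm F (g⁻¹ * P)) := by
      apply fe_norm_nonneg hF' v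
      intro w hw
      rw [w.ord_mul (inv_ne_zero hg) hP0, w.ord_inv, hordP w (Place.mem_fiber.mpr hw)]
      omega
    have hNg : Algebra.norm F g ≠ 0 := Algebra.norm_ne_zero_iff.mpr hg
    have hNP : Algebra.norm F P ≠ 0 := Algebra.norm_ne_zero_iff.mpr hP0
    rw [map_mul, FENorm_norm_inv, v.ord_mul hNg (inv_ne_zero hNP), v.ord_inv] at h1
    rw [map_mul, FENorm_norm_inv, v.ord_mul (inv_ne_zero hNg) hNP, v.ord_inv] at h2
    have h3 : v.ord (Algebra.norm F g) = v.ord (Algebra.norm F P) := by omega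
    rw [h3, hP, FENorm_lam_prod_zpow v S t ht0]
  have hc : ∀ w ∈ S, 1 ≤ v.ord (Algebra.norm F (t w)) := by
    intro w hw
    have : 0 < v.ord (Algebra.norm F (t w)) := by
      apply fe_norm_pos hF' v (t w) (ht0 w hw) _ w (Place.mem_fiber.mp hw)
      · rw [(ht w hw).2 w hw, if_pos rfl]; exact one_pos
      · intro w' hw'
        rw [(ht w hw).2 w' (Place.mem_fiber.mpr hw')]
        split_ifs <;> omega
    omega
  -- the uniformizer
  obtain ⟨π, hπ⟩ := exists_ord_eq_one v
  have hπ0 : π ≠ 0 := by rintro rfl; simp at hπ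
  have h4 := key (algebraMap F F' π) ((_root_.map_ne_zero _).2 hπ0)
  rw [Algebra.norm_algebraMap, ← zpow_natCast, v.ord_zpow, hπ, mul_one] at h4
  have h5 := (fe_fundamental hF hF').sum_ramificationIndex_mul_deg v
  rw [deg_eq_one hF v, ← hS] at h5
  have h6 : ∑ w ∈ S, (w.ramificationIndex F : ℤ) * (v.ord (Algebra.norm F (t w)) - 1) = 0 := by
    have e1 : ∑ w ∈ S, (w.ramificationIndex F : ℤ) * (w.deg : ℤ)
        = ∑ w ∈ S, (w.ramificationIndex F : ℤ) :=
      Finset.sum_congr rfl fun w _ => by rw [deg_eq_one hF' w]; simp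
    have e2 : ∑ w ∈ S, w.ord (algebraMap F F' π) * v.ord (Algebra.norm F (t w))
        = ∑ w ∈ S, (w.ramificationIndex F : ℤ) * v.ord (Algebra.norm F (t w)) :=
      Finset.sum_congr rfl fun w hw => by
        rw [w.ord_restrict π, Place.mem_fiber.mp hw, hπ, mul_one]
    rw [e1] at h5
    rw [e2] at h4
    simp only [mul_sub, mul_one, Finset.sum_sub_distrib]
    rw [← h4, h5]
    simp
  have h7 : ∀ w ∈ S, v.ord (Algebra.norm F (t w)) = 1 := by
    intro w hw
    have h8 := (Finset.sum_eq_zero_iff_of_nonneg (fun w hw =>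
      mul_nonneg (Int.natCast_nonneg _) (by have := hc w hw; omega))).mp h6 w hw
    have he : (0 : ℤ) < (w.ramificationIndex F : ℤ) := by
      exact_mod_cast w.ramificationIndex_pos (F := F)
    rcases mul_eq_zero.mp h8 with h | h
    · omega
    · omega
  rw [key f hf, Divisor.pushforward_apply]
  have e3 : ∑ w ∈ S, w.ord f * v.ord (Algebra.norm F (t w))
      = ∑ w ∈ S, (if w.restrict F = v then D w * (w.inertiaDeg F : ℤ) else 0) :=
    Finset.sum_congr rfl fun w hw => by
      rw [h7 w hw, if_pos (Place.mem_fiber.mp hw), fe_inertiaDeg hF hF', hD, Nat.cast_one]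
  rw [e3]
  have e4 : ∑ w ∈ D.support, (if w.restrict F = v then D w * (w.inertiaDeg F : ℤ) else 0)
      = ∑ w ∈ D.support ∪ S, (if w.restrict F = v then D w * (w.inertiaDeg F : ℤ) else 0) :=
    Finset.sum_subset Finset.subset_union_left fun w _ hw => by
      rw [Finsupp.notMem_support_iff.mp hw]; simp
  have e5 : ∑ w ∈ S, (if w.restrict F = v then D w * (w.inertiaDeg F : ℤ) else 0)
      = ∑ w ∈ D.support ∪ S, (if w.restrict F = v then D w * (w.inertiaDeg F : ℤ) else 0) :=
    Finset.sum_subset Finset.subset_union_right fun w _ hw => by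
      rw [if_neg fun h => hw (Place.mem_fiber.mpr h)]
  rw [e4, e5]

end Tower

theorem fe_norm_along {K F F' : Type*} [Field K] [Field F] [Field F'] [Algebra K F] [Algebra K F']
    [IsAlgClosed K] [CharZero K] (hF : IsFF K F) (hF' : IsFF K F') (φ : F →ₐ[K] F')
    (hfin : FiniteAlong K φ) : NormFormulaAlong K φ hfin := by
  letI := algebraAlong φ
  haveI := isScalarTower_along φ
  haveI : Module.Finite F F' := hfin
  exact fe_norm hF hF'

end Fermat.Agent.S37Lib
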