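import Fermat.Agent.S37.Nrm
import Fermat.Agent.S37.FENorm
import Fermat.Agent.S37.NormBeta
import Fermat.Prelude.Def_ModularCurve_HeckeModule

/-!
# S37 (HD): the Hecke operator `T_ℓ` of `JZero N` on the level of divisors

`T = α_* β^* = heckeDivBar hα hβ`; all the inputs (`HeckeInputsAlong`) come from the block (FE)
(`fe_isIntegral_along`, `fe_finite_along`, `fe_fundamental_along`, `fe_norm_along`,
`FFLib.hasPrincipalDivisors`, `isFF_bar`).
* class: `heckeOperatorBar_apply`, `heckeOperatorAlong_eq`, `Pic0.correspondence_mk`.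
* bound: `T P ≥ 0` (`fe_pullbackAlong_nonneg`, `fe_pushforwardAlong_nonneg`) has degree
  `finrankAlong β` (`Divisor.degree_correspondence`), and `nrm_eq_degree`.
* principal divisors: `β^* div f = div (β f)` (`fe_pullbackAlong_ord`), `α_* div g = div (N_α g)`
  (the norm formula) and `norm_heckeBeta`.
-/

set_option autoImplicit false
set_option synthInstance.maxHeartbeats 400000
set_option linter.style.haveILetI false

open AlgebraicCurve ModularCurve

namespace Fermat.Agent.S37Lib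

open Fermat.Agent.S18Lib Fermat.Agent.S24Lib Fermat.Agent.ESLib

theorem heckeInputsAlong (N ℓ : ℕ) [NeZero N] [NeZero ℓ] : HeckeInputsAlong Qb N ℓ := by
  have hF := isFF_bar N
  have hF' := isFF_bar (N * ℓ)
  haveI := FFLib.hasPrincipalDivisors hF'
  exact heckeInputsAlong_intro (fe_isIntegral_along hF hF' _) (fe_isIntegral_along hF hF' _)
    (fe_fundamental_along hF hF' _ _) (fe_finite_along hF hF' _) (fe_norm_along hF hF' _ _)

/-- abstract form of the three properties of a correspondence `ψ_* φ^*` -/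
theorem HeckeDiv_abs {K F F' : Type*} [Field K] [IsAlgClosed K] [Field F] [Field F']
    [Algebra K F] [Algebra K F'] (hF : IsFF K F) [HasPrincipalDivisors K F']
    (φ ψ : F →ₐ[K] F') (hφ : φ.toRingHom.IsIntegral) (hψ : ψ.toRingHom.IsIntegral)
    (hFI : FundamentalIdentityAlong K φ hφ) (hfin : FiniteAlong K ψ)
    (hN : NormFormulaAlong K ψ hfin) :
    (∀ P : Place K F, nrm (Divisor.correspondence φ ψ hφ hψ (Finsupp.single P 1))
      ≤ finrankAlong K φ) ∧
    (∀ (f : F), f ≠ 0 → ∀ D : Divisor K F, (∀ P, D P = P.ord f) → ∀ P,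
      Divisor.correspondence φ ψ hφ hψ D P
        = P.ord (letI := algebraAlong ψ; Algebra.norm F (φ f))) := by
  classical
  constructor
  · intro P
    have h0 : (0 : Divisor K F) ≤ Finsupp.single P 1 := by
      intro v
      rw [Finsupp.single_apply]
      split_ifs <;> simp
    have h1 := nrm_eq_degree hF (D := Divisor.correspondence φ ψ hφ hψ (Finsupp.single P 1))
      (fe_pushforwardAlong_nonneg ψ hψ (fe_pullbackAlong_nonneg φ hφ h0))
    rw [Divisor.degree_correspondence φ ψ hφ hψ hFI, FFLib.degree_single' hF, mul_one] at h1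
    exact le_of_eq (by exact_mod_cast h1)
  · intro f hf D hD P
    have h1 : ∀ w, Divisor.pullbackAlong φ hφ D w = w.ord (φ f) :=
      fun w => fe_pullbackAlong_ord φ hφ hD w
    have hφf : φ f ≠ 0 := by rwa [Ne, map_eq_zero]
    exact hN (φ f) hφf _ h1 P

theorem exists_heckeDiv (N ℓ : ℕ) [NeZero N] [NeZero ℓ] (hℓ : ℓ.Prime) (hℓN : ¬ ℓ ∣ N) :
    ∃ T : Divisor Qb (FB N) →+ Divisor Qb (FB N),
      (∀ D : Divisor.degZero (K := Qb) (F := FB N),
        ∃ h : T (D : Divisor Qb (FB N)) ∈ Divisor.degZero (K := Qb) (F := FB N),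
          heckeOperatorBar N ⟨ℓ, hℓ⟩ (Pic0.mk D) = Pic0.mk ⟨T (D : Divisor Qb (FB N)), h⟩) ∧
      (∃ d : ℕ, ∀ P : Place Qb (FB N), nrm (T (Finsupp.single P 1)) ≤ d) ∧
      (∀ (f g : FB N), f ≠ 0 → (g : LaurentSeries Qb) = heckeMul ℓ (f : LaurentSeries Qb) →
        ∀ D : Divisor Qb (FB N), (∀ P, D P = P.ord f) → ∀ P, T D P = P.ord g) := by
  have hF := isFF_bar N
  have hF' := isFF_bar (N * ℓ)
  haveI := FFLib.hasPrincipalDivisors hF'
  have hα : HeckeAlphaBarIntegral Qb N ℓ := fe_isIntegral_along hF hF' _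
  have hβ : HeckeBetaBarIntegral Qb N ℓ := fe_isIntegral_along hF hF' _
  have hFI := fe_fundamental_along hF hF' (heckeBetaBar Qb N ℓ) hβ
  have hfin := fe_finite_along hF hF' (heckeAlphaBar Qb N ℓ)
  have hN := fe_norm_along hF hF' (heckeAlphaBar Qb N ℓ) hfin
  obtain ⟨habs1, habs2⟩ := HeckeDiv_abs hF (heckeBetaBar Qb N ℓ) (heckeAlphaBar Qb N ℓ) hβ hα
    hFI hfin hN
  refine ⟨Divisor.correspondence (heckeBetaBar Qb N ℓ) (heckeAlphaBar Qb N ℓ) hβ hα, ?_,
    ⟨_, habs1⟩, ?_⟩
  · intro D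
    refine ⟨Divisor.correspondence_mem_degZero _ _ hβ hα hFI D.2, ?_⟩
    refine (heckeOperatorBar_apply N ⟨ℓ, hℓ⟩ (Pic0.mk D)).trans ?_
    have e := heckeOperatorAlong_eq (L := Qb) (N := N) (ℓ := ℓ) hα hβ hFI hfin hN
    have e' : heckeOperatorAlong Qb N ℓ (Pic0.mk D) = heckePic0Bar hα hβ hFI hfin hN (Pic0.mk D) := by
      rw [e]
    exact e'
  · intro f g hf hg D hD P
    rw [habs2 f hf D hD P]
    congr 1
    apply Subtype.ext
    rw [hg]
    exact norm_heckeBeta N ℓ hℓ hℓN f hf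

end Fermat.Agent.S37Lib
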