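import Fermat.Agent.S37.Defs

/-!
# S37 (KP): to kill the principal divisors it is enough to kill the divisors of the `A`-integral
`q`-expansions with nonzero reduction (normal form `NFHyp`: `f = c y₁ / y₂`)
-/

set_option autoImplicit false
set_option synthInstance.maxHeartbeats 400000

open AlgebraicCurve ModularCurve

namespace Fermat.Agent.S37Lib

open Fermat.Agent.S18Lib Fermat.Agent.S24Lib Fermat.Agent.ESLib

theorem kills_principal {N : ℕ} [NeZero N] {A : ValuationSubring Qb} (hNF : NFHyp N A)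
    {B : Type*} [AddCommGroup B] (δ : Divisor Qb (FB N) →+ B)
    (h : ∀ (y : LaurentSeries A) (hy : coeffMap A.subtype y ∈ FB N),
      coeffMap (IsLocalRing.residue A) y ≠ 0 → ∀ D : Divisor Qb (FB N),
      (∀ P, D P = P.ord (⟨coeffMap A.subtype y, hy⟩ : FB N)) → δ D = 0)
    (D : Divisor Qb (FB N)) (hD : Divisor.IsPrincipal D) : δ D = 0 := by
  obtain ⟨f, hf, hDf⟩ := hD
  obtain ⟨c, hc, y₁, y₂, h₁, h₂, hn₁, hn₂, hrel⟩ := hNF f hf
  have hFF : IsFF Qb (FB N) := isFF_bar N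
  obtain ⟨z₁, hz₁⟩ : ∃ z : FB N, z = ⟨coeffMap A.subtype y₁, h₁⟩ := ⟨_, rfl⟩
  obtain ⟨z₂, hz₂⟩ : ∃ z : FB N, z = ⟨coeffMap A.subtype y₂, h₂⟩ := ⟨_, rfl⟩
  have c₁ : (z₁ : LaurentSeries Qb) = coeffMap A.subtype y₁ := by rw [hz₁]
  have c₂ : (z₂ : LaurentSeries Qb) = coeffMap A.subtype y₂ := by rw [hz₂]
  have hz₁0 : z₁ ≠ 0 := fun h => E_ne_zero_of_red hn₁ (by rw [← c₁, h]; rfl)
  have hz₂0 : z₂ ≠ 0 := fun h => E_ne_zero_of_red hn₂ (by rw [← c₂, h]; rfl)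
  have hrel' : f * z₂ = algebraMap Qb (FB N) c * z₁ := by
    apply Subtype.ext
    show (f : LaurentSeries Qb) * (z₂ : LaurentSeries Qb)
      = algebraMap Qb (LaurentSeries Qb) c * (z₁ : LaurentSeries Qb)
    rw [c₁, c₂, hrel]
  have hc' : algebraMap Qb (FB N) c ≠ 0 := by
    rw [Ne, map_eq_zero]; exact hc
  have e : D = FFLib.divOf Qb z₁ - FFLib.divOf Qb z₂ := by
    ext P
    rw [hDf, Finsupp.sub_apply, FFLib.divOf_apply hFF, FFLib.divOf_apply hFF]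
    have h1 := congrArg P.ord hrel'
    rw [P.ord_mul hf hz₂0, P.ord_mul hc' hz₁0, ord_algebraMap P c, zero_add] at h1
    omega
  rw [e, map_sub, h y₁ h₁ hn₁ _ (fun P => by rw [FFLib.divOf_apply hFF, hz₁]),
    h y₂ h₂ hn₂ _ (fun P => by rw [FFLib.divOf_apply hFF, hz₂]), sub_zero]

end Fermat.Agent.S37Lib
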