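import Fermat.Agent.S37.Rigid
import Fermat.Agent.S37.KPrin
import Fermat.Agent.S37.HeckeDiv

/-!
# S37 (KC): the Eichler-Shimura congruence `(σ² - T_ℓ σ + ℓ) J ⊆ K0` for a Frobenius `σ`

`T` from `exists_heckeDiv`, `g = arithmeticGalois (modularFunctionFieldFull N) σ`,
`δ D = Φ (g • g • D - T (g • D) + ℓ • D)` is bounded on the places (`nrm_map_le`).  For an integral `y` with
nonzero reduction, `s = actA A σ _`: `g • g • div y + ℓ • div y = div (s s y * y ^ ℓ)` and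
`T (g • div y) = div (heckeMul ℓ (s y))`, `heckeMul ℓ (s y) = coeffMap A.subtype Y` with
`red Y = (red (s y))(q^ℓ) * Frob (red (s y))` (`exists_heckeMul_int`), which is the reduction of
`s s y * y ^ ℓ` (`coeffMap_residue_actA_frob`, `pow_char_eq`): exactly the computation in
`ESLib.es_kummer_core`.  So `δ (div y) = 0` by `IsRedFun.eq_of_red`.  Conclude by `kills_principal`, `rigid`.
-/

set_option autoImplicit false
set_option synthInstance.maxHeartbeats 400000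
set_option linter.style.haveILetI false

open AlgebraicCurve ModularCurve

namespace Fermat.Agent.S37Lib

open Fermat.Agent.S18Lib Fermat.Agent.S24Lib Fermat.Agent.ESLib

/-- the Galois action on principal divisors -/
theorem KFrob_smul_div {K F : Type*} [Field K] [Field F] [Algebra K F] (g : SemilinearAut K F)
    {D : Divisor K F} {f : F} (hD : ∀ P, D P = P.ord f) (P : Place K F) :
    (g • D) P = P.ord (g • f) := by
  rw [SemilinearAut.divisor_smul_apply, hD]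
  have h := SemilinearAut.ord_smul g (g⁻¹ • P) f
  rw [smul_inv_smul] at h
  exact h.symm

theorem KFrob_ord_mul_pow {K F : Type*} [Field K] [Field F] [Algebra K F] (P : Place K F)
    {a b : F} (ha : a ≠ 0) (hb : b ≠ 0) (n : ℕ) : P.ord (a * b ^ n) = P.ord a + n * P.ord b := by
  rw [P.ord_mul ha (pow_ne_zero _ hb), ← zpow_natCast, P.ord_zpow]

theorem KFrob_add_nsmul_apply {K F : Type*} [Field K] [Field F] [Algebra K F]
    (D E : Divisor K F) (n : ℕ) (P : Place K F) : (D + n • E) P = D P + n * E P := by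
  rw [Finsupp.add_apply, Finsupp.smul_apply, nsmul_eq_mul]

set_option maxHeartbeats 1000000 in
/-- the Eichler-Shimura congruence on the divisor of an integral `q`-expansion -/
theorem KFrob_key {N : ℕ} [NeZero N] {ℓ : ℕ} (hℓ : ℓ.Prime) (hℓN : ¬ ℓ ∣ N) [NeZero ℓ]
    {A : ValuationSubring Qb} (hA : A.LiesOverPrime ℓ) {ι : Type}
    {Φ : Divisor Qb (FB N) →+ (ι →₀ ℤ)} (hΦ : IsRedFun A N Φ)
    (σ : GQ) (hσ : A.IsFrobeniusAt σ ℓ) (T : Divisor Qb (FB N) →+ Divisor Qb (FB N))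
    (hTprin : ∀ (f g : FB N), f ≠ 0 → (g : LaurentSeries Qb) = heckeMul ℓ (f : LaurentSeries Qb) →
        ∀ D : Divisor Qb (FB N), (∀ P, D P = P.ord f) → ∀ P, T D P = P.ord g)
    (y : LaurentSeries A) (hy : coeffMap A.subtype y ∈ FB N)
    (hne : coeffMap (IsLocalRing.residue A) y ≠ 0) (D : Divisor Qb (FB N))
    (hD : ∀ P, D P = P.ord (⟨coeffMap A.subtype y, hy⟩ : FB N)) :
    Φ (arithmeticGalois (modularFunctionFieldFull N) σ •
        arithmeticGalois (modularFunctionFieldFull N) σ • D + ℓ • D)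
      = Φ (T (arithmeticGalois (modularFunctionFieldFull N) σ • D)) := by
  haveI : Fact ℓ.Prime := ⟨hℓ⟩
  haveI : CharP (kk A) ℓ := charP_kk hℓ hA
  obtain ⟨g, hg⟩ : ∃ g : SemilinearAut Qb (FB N),
    g = arithmeticGalois (modularFunctionFieldFull N) σ := ⟨_, rfl⟩
  rw [← hg]
  have hd := hσ.mem_decompositionSubgroup
  obtain ⟨s, hs⟩ : ∃ s : A →+* A, s = actA A σ hd := ⟨_, rfl⟩
  have hsub : ∀ y : LaurentSeries A, coeffMap A.subtype (coeffMap s y)
      = coeffMap (σ : Qb →+* Qb) (coeffMap A.subtype y) := by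
    intro y; rw [hs]; exact coeffMap_subtype_actA A σ hd y
  have hmemσ : ∀ y : LaurentSeries A, coeffMap A.subtype y ∈ FB N →
      coeffMap A.subtype (coeffMap s y) ∈ FB N := by
    intro y hy
    rw [hsub]
    exact (gal N σ ⟨_, hy⟩).2
  have hredσ : ∀ y : LaurentSeries A, coeffMap (IsLocalRing.residue A) (coeffMap s y)
      = coeffMap (frobenius (kk A) ℓ) (coeffMap (IsLocalRing.residue A) y) := by
    intro y; rw [hs]; exact coeffMap_residue_actA_frob hσ y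
  have hfrob0 : ∀ z : LaurentSeries (kk A), z ≠ 0 → coeffMap (frobenius (kk A) ℓ) z ≠ 0 := by
    intro z hz h0
    apply hz
    ext n
    have := congrArg (fun w => HahnSeries.coeff w n) h0
    simp only [coeffMap_coeff, HahnSeries.coeff_zero] at this
    rw [HahnSeries.coeff_zero]
    exact (map_eq_zero _).mp this
  have hq0 : ∀ z : LaurentSeries (kk A), z ≠ 0 → qExpand (kk A) ℓ z ≠ 0 := by
    intro z hz h0
    exact hz (qExpand_injective (R := kk A) ℓ (by rw [h0, map_zero]))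
  have hgsmul : ∀ (f f' : FB N) (y : LaurentSeries A), (f : LaurentSeries Qb) = coeffMap A.subtype y →
      (f' : LaurentSeries Qb) = coeffMap A.subtype (coeffMap s y) → g • f = f' := by
    intro f f' y hf hf'
    apply Subtype.ext
    rw [hf', hsub, ← hf, hg]
    rfl
  have hy1 := hmemσ y hy
  have hy2 := hmemσ _ hy1
  have hne1 : coeffMap (IsLocalRing.residue A) (coeffMap s y) ≠ 0 := by
    rw [hredσ]; exact hfrob0 _ hne
  have hne2 : coeffMap (IsLocalRing.residue A) (coeffMap s (coeffMap s y)) ≠ 0 := by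
    rw [hredσ]; exact hfrob0 _ hne1
  obtain ⟨f₀, hf₀⟩ : ∃ f : FB N, f = ⟨coeffMap A.subtype y, hy⟩ := ⟨_, rfl⟩
  obtain ⟨f₁, hf₁⟩ : ∃ f : FB N, f = ⟨coeffMap A.subtype (coeffMap s y), hy1⟩ := ⟨_, rfl⟩
  obtain ⟨f₂, hf₂⟩ : ∃ f : FB N, f = ⟨coeffMap A.subtype (coeffMap s (coeffMap s y)), hy2⟩ :=
    ⟨_, rfl⟩
  have c₀ : (f₀ : LaurentSeries Qb) = coeffMap A.subtype y := by rw [hf₀]
  have c₁ : (f₁ : LaurentSeries Qb) = coeffMap A.subtype (coeffMap s y) := by rw [hf₁]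
  have c₂ : (f₂ : LaurentSeries Qb) = coeffMap A.subtype (coeffMap s (coeffMap s y)) := by rw [hf₂]
  rw [← hf₀] at hD
  have hf₀0 : f₀ ≠ 0 := fun h => E_ne_zero_of_red hne (by rw [← c₀, h]; rfl)
  have hf₁0 : f₁ ≠ 0 := fun h => E_ne_zero_of_red hne1 (by rw [← c₁, h]; rfl)
  have hf₂0 : f₂ ≠ 0 := fun h => E_ne_zero_of_red hne2 (by rw [← c₂, h]; rfl)
  have hD1 : ∀ P, (g • D) P = P.ord f₁ := by
    intro P
    rw [KFrob_smul_div g hD P, hgsmul f₀ f₁ y c₀ c₁]
  have hD2 : ∀ P, (g • g • D) P = P.ord f₂ := by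
    intro P
    rw [KFrob_smul_div g hD1 P, hgsmul f₁ f₂ _ c₁ c₂]
  obtain ⟨Y, hY, hYr⟩ := exists_heckeMul_int ℓ (coeffMap s y)
  have hYm : coeffMap A.subtype Y ∈ FB N := by
    rw [hY, ← c₁]; exact heckeMul_mem N ℓ hℓ hℓN f₁
  have hDT : ∀ P, T (g • D) P = P.ord (⟨coeffMap A.subtype Y, hYm⟩ : FB N) :=
    hTprin f₁ ⟨coeffMap A.subtype Y, hYm⟩ hf₁0 (by rw [c₁]; exact hY) (g • D) hD1
  have hZeq : coeffMap A.subtype (coeffMap s (coeffMap s y) * y ^ ℓ)
      = ((f₂ * f₀ ^ ℓ : FB N) : LaurentSeries Qb) := by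
    rw [map_mul, map_pow, ← c₂, ← c₀]; rfl
  have hZm : coeffMap A.subtype (coeffMap s (coeffMap s y) * y ^ ℓ) ∈ FB N := by
    rw [hZeq]; exact (f₂ * f₀ ^ ℓ : FB N).2
  have hDZ : ∀ P, (g • g • D + ℓ • D) P
      = P.ord (⟨coeffMap A.subtype (coeffMap s (coeffMap s y) * y ^ ℓ), hZm⟩ : FB N) := by
    intro P
    have e : (⟨coeffMap A.subtype (coeffMap s (coeffMap s y) * y ^ ℓ), hZm⟩ : FB N)
        = f₂ * f₀ ^ ℓ := Subtype.ext hZeq
    rw [e, KFrob_ord_mul_pow P hf₂0 hf₀0, KFrob_add_nsmul_apply, hD2, hD]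
  have hYne : coeffMap (IsLocalRing.residue A) Y ≠ 0 := by
    rw [hYr]
    exact mul_ne_zero (hq0 _ hne1) (hfrob0 _ hne1)
  have hZY : coeffMap (IsLocalRing.residue A) (coeffMap s (coeffMap s y) * y ^ ℓ)
      = coeffMap (IsLocalRing.residue A) Y := by
    rw [map_mul, map_pow, hYr, pow_char_eq ℓ]
    simp only [hredσ]
    ring
  exact hΦ.eq_of_red _ Y hZm hYm hYne hZY _ _ hDZ hDT

theorem KFrob_mk {K F : Type*} [Field K] [Field F] [Algebra K F]
    (a b c : Divisor.degZero (K := K) (F := F)) (n : ℕ) :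
    Pic0.mk (a - b + n • c) = Pic0.mk a - Pic0.mk b + n • Pic0.mk c := rfl

theorem KFrob_coe {K F : Type*} [Field K] [Field F] [Algebra K F]
    (a b c : Divisor.degZero (K := K) (F := F)) (n : ℕ) :
    ((a - b + n • c : Divisor.degZero (K := K) (F := F)) : Divisor K F)
      = (a : Divisor K F) - b + n • (c : Divisor K F) := rfl

set_option maxHeartbeats 1000000 in
theorem K0_frob {N : ℕ} [NeZero N] {ℓ : ℕ} (hℓ : ℓ.Prime) (hℓN : ¬ ℓ ∣ N)
    {A : ValuationSubring Qb} (hA : A.LiesOverPrime ℓ) {ι : Type}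
    {Φ : Divisor Qb (FB N) →+ (ι →₀ ℤ)} (hΦ : IsRedFun A N Φ) (hNF : NFHyp N A)
    (σ : GQ) (hσ : A.IsFrobeniusAt σ ℓ) (x : JZero N) :
    σ • σ • x - heckeOperatorBar N ⟨ℓ, hℓ⟩ (σ • x) + ℓ • x ∈ K0 N Φ := by
  haveI : NeZero ℓ := ⟨hℓ.ne_zero⟩
  obtain ⟨T, hTcls, ⟨d, hTd⟩, hTprin⟩ := exists_heckeDiv N ℓ hℓ hℓN
  obtain ⟨C, hC⟩ := hΦ.bdd
  have hkey := KFrob_key hℓ hℓN hA hΦ σ hσ T hTprin
  obtain ⟨g, hg⟩ : ∃ g : SemilinearAut Qb (FB N),
    g = arithmeticGalois (modularFunctionFieldFull N) σ := ⟨_, rfl⟩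
  rw [← hg] at hkey
  let G : Divisor Qb (FB N) →+ Divisor Qb (FB N) := DistribSMul.toAddMonoidHom _ g
  let Δ : Divisor Qb (FB N) →+ Divisor Qb (FB N) :=
    G.comp G - T.comp G + ℓ • AddMonoidHom.id _
  have hΔ : ∀ D, Δ D = g • g • D - T (g • D) + ℓ • D := fun D => rfl
  let δ : Divisor Qb (FB N) →+ (ι →₀ ℤ) := Φ.comp Δ
  have hδ : ∀ D, δ D = Φ (g • g • D) - Φ (T (g • D)) + ℓ • Φ D := by
    intro D
    show Φ (Δ D) = _
    rw [hΔ, map_add, map_sub, map_nsmul]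
  -- the bound
  have hbd : ∀ P : Place Qb (FB N), nrm (δ (Finsupp.single P 1)) ≤ C + d * C + ℓ * C := by
    intro P
    rw [hδ, SemilinearAut.smul_single, SemilinearAut.smul_single]
    have h1 := nrm_add_le (Φ (Finsupp.single (g • g • P) 1) - Φ (T (Finsupp.single (g • P) 1)))
      (ℓ • Φ (Finsupp.single P 1))
    have h2 := nrm_sub_le (Φ (Finsupp.single (g • g • P) 1)) (Φ (T (Finsupp.single (g • P) 1)))
    have h3 := nrm_map_le Φ C hC (T (Finsupp.single (g • P) 1))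
    have h4 : nrm (T (Finsupp.single (g • P) 1)) * C ≤ d * C := Nat.mul_le_mul_right _ (hTd _)
    have h5 : nrm (ℓ • Φ (Finsupp.single P 1)) ≤ ℓ * C := by
      rw [nrm_nsmul]; exact Nat.mul_le_mul_left _ (hC P)
    have h6 := hC (g • g • P)
    omega
  have hprin : ∀ D : Divisor Qb (FB N), Divisor.IsPrincipal D → δ D = 0 := by
    refine kills_principal hNF δ ?_
    intro y hy hne D hD
    have key := hkey y hy hne D hD
    rw [hδ]
    rw [map_add, map_nsmul] at key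
    rw [← key]
    abel
  -- conclusion
  obtain ⟨D, rfl⟩ := Pic0.mk_surjective x
  have h0 : δ (D : Divisor Qb (FB N)) = 0 :=
    rigid (isFF_bar N) δ _ hbd hprin D (Divisor.mem_degZero.mp D.2)
  obtain ⟨hT1, hT2⟩ := hTcls (SemilinearAut.degZeroSMulHom g D)
  have e1 : σ • (Pic0.mk D : JZero N) = Pic0.mk (SemilinearAut.degZeroSMulHom g D) := by
    rw [hg]; rfl
  have e2 : σ • (Pic0.mk (SemilinearAut.degZeroSMulHom g D) : JZero N)
      = Pic0.mk (SemilinearAut.degZeroSMulHom g (SemilinearAut.degZeroSMulHom g D)) := by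
    rw [hg]; rfl
  rw [e1, e2, hT2, ← KFrob_mk]
  refine ⟨_, ?_, rfl⟩
  rw [KFrob_coe]
  exact h0

end Fermat.Agent.S37Lib
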