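import Fermat.Agent.S37.Rigid
import Fermat.Agent.S37.KPrin

/-!
# S37 (KB): `(τ - 1) J ⊆ K0` for `τ` in the inertia group

`δ D = Φ (g • D - D)`, `g = arithmeticGalois (modularFunctionFieldFull N) τ`, is bounded by `2 C` on the
places (`SemilinearAut.smul_single`) and kills the divisors of integral `y` (`IsRedFun.eq_of_red` for
`coeffMap (actA A τ _) y` and `y`: `coeffMap_subtype_actA`, `coeffMap_residue_actA_inertia`;
`g • div y = div (g • y)`: `SemilinearAut.divisor_smul_apply`, `SemilinearAut.ord_smul`).  Conclude by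
`kills_principal`, `rigid` (`isFF_bar N`), `galois_smul_pic0_def`, `SemilinearAut.pic0_smul_mk`.
-/

set_option autoImplicit false
set_option synthInstance.maxHeartbeats 400000

open AlgebraicCurve ModularCurve

namespace Fermat.Agent.S37Lib

open Fermat.Agent.S18Lib Fermat.Agent.S24Lib Fermat.Agent.ESLib

/-- the Galois action on principal divisors -/
theorem KInertia_smul_div {K F : Type*} [Field K] [Field F] [Algebra K F] (g : SemilinearAut K F)
    {D : Divisor K F} {f : F} (hD : ∀ P, D P = P.ord f) (P : Place K F) :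
    (g • D) P = P.ord (g • f) := by
  rw [SemilinearAut.divisor_smul_apply, hD]
  have h := SemilinearAut.ord_smul g (g⁻¹ • P) f
  rw [smul_inv_smul] at h
  exact h.symm

theorem KInertia_mk {K F : Type*} [Field K] [Field F] [Algebra K F]
    (a b : Divisor.degZero (K := K) (F := F)) :
    Pic0.mk (a - b) = Pic0.mk a - Pic0.mk b := rfl

theorem KInertia_coe {K F : Type*} [Field K] [Field F] [Algebra K F]
    (a b : Divisor.degZero (K := K) (F := F)) :
    ((a - b : Divisor.degZero (K := K) (F := F)) : Divisor K F)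
      = (a : Divisor K F) - b := rfl

set_option maxHeartbeats 1000000 in
theorem K0_inertia {N : ℕ} [NeZero N] {A : ValuationSubring Qb} {ι : Type}
    {Φ : Divisor Qb (FB N) →+ (ι →₀ ℤ)} (hΦ : IsRedFun A N Φ) (hNF : NFHyp N A)
    (τ : GQ) (hτ : τ ∈ A.inertiaSubgroupIn ℚ) (x : JZero N) : τ • x - x ∈ K0 N Φ := by
  obtain ⟨C, hC⟩ := hΦ.bdd
  obtain ⟨g, hg⟩ : ∃ g : SemilinearAut Qb (FB N),
    g = arithmeticGalois (modularFunctionFieldFull N) τ := ⟨_, rfl⟩
  let G : Divisor Qb (FB N) →+ Divisor Qb (FB N) := DistribSMul.toAddMonoidHom _ g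
  let δ : Divisor Qb (FB N) →+ (ι →₀ ℤ) := Φ.comp (G - AddMonoidHom.id _)
  have hδ : ∀ D, δ D = Φ (g • D) - Φ D := by
    intro D
    show Φ (g • D - D) = _
    rw [map_sub]
  have hbd : ∀ P : Place Qb (FB N), nrm (δ (Finsupp.single P 1)) ≤ C + C := by
    intro P
    rw [hδ, SemilinearAut.smul_single]
    have h2 := nrm_sub_le (Φ (Finsupp.single (g • P) 1)) (Φ (Finsupp.single P 1))
    have h3 := hC (g • P)
    have h4 := hC P
    omega
  have hd := mem_decomp_of_inertia A hτ
  have hprin : ∀ D : Divisor Qb (FB N), Divisor.IsPrincipal D → δ D = 0 := by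
    refine kills_principal hNF δ ?_
    intro y hy hne D hD
    have hsub : coeffMap A.subtype (coeffMap (actA A τ hd) y)
        = coeffMap (τ : Qb →+* Qb) (coeffMap A.subtype y) := coeffMap_subtype_actA A τ hd y
    have hy1 : coeffMap A.subtype (coeffMap (actA A τ hd) y) ∈ FB N := by
      rw [hsub]
      exact (gal N τ ⟨_, hy⟩).2
    have hgf : g • (⟨coeffMap A.subtype y, hy⟩ : FB N)
        = ⟨coeffMap A.subtype (coeffMap (actA A τ hd) y), hy1⟩ := by
      apply Subtype.ext
      show _ = coeffMap A.subtype (coeffMap (actA A τ hd) y)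
      rw [hsub, hg]
      rfl
    have hD1 : ∀ P, (g • D) P
        = P.ord (⟨coeffMap A.subtype (coeffMap (actA A τ hd) y), hy1⟩ : FB N) := by
      intro P
      rw [KInertia_smul_div g hD P, hgf]
    have key := hΦ.eq_of_red (coeffMap (actA A τ hd) y) y hy1 hy hne
      (coeffMap_residue_actA_inertia A hτ y) _ _ hD1 hD
    rw [hδ, key, sub_self]
  obtain ⟨D, rfl⟩ := Pic0.mk_surjective x
  have h0 : δ (D : Divisor Qb (FB N)) = 0 :=
    rigid (isFF_bar N) δ _ hbd hprin D (Divisor.mem_degZero.mp D.2)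
  have e1 : τ • (Pic0.mk D : JZero N) = Pic0.mk (SemilinearAut.degZeroSMulHom g D) := by
    rw [hg]; rfl
  rw [e1, ← KInertia_mk]
  refine ⟨_, ?_, rfl⟩
  rw [KInertia_coe]
  exact h0

end Fermat.Agent.S37Lib
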