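import Fermat.Agent.S37.Defs
import Fermat.Agent.Lib.FF.ThetaD

/-!
# S37 (KA): `K0 ∩ J[m] = 0` for `ℓ ∤ m`

`x = [D]`, `Φ D = 0`, `m D = div f`, `f = c y₁ / y₂` (`NFHyp`), so `Φ (div y₁) = Φ (div y₂)` and by
`IsRedFun.red_of_eq` `red y₁ = c' red y₂`.  Lift `c'` to `a ∈ A`, replace `y₂` by `C a * y₂` and apply
`KLHyp N A m`: `D` is principal.
-/

set_option autoImplicit false
set_option synthInstance.maxHeartbeats 400000

open AlgebraicCurve ModularCurve

namespace Fermat.Agent.S37Lib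

open Fermat.Agent.S18Lib Fermat.Agent.S24Lib Fermat.Agent.ESLib

theorem KTorsion_isPrincipal {K F : Type*} [Field K] [Field F] [Algebra K F]
    (D : Divisor.degZero (K := K) (F := F)) :
    Pic0.mk D = 0 ↔ Divisor.IsPrincipal (D : Divisor K F) :=
  QuotientAddGroup.eq_zero_iff D

theorem KTorsion_nsmul {K F : Type*} [Field K] [Field F] [Algebra K F]
    (D : Divisor.degZero (K := K) (F := F)) (m : ℕ) : m • Pic0.mk D = Pic0.mk (m • D) := rfl

theorem KTorsion_nsmul_apply {K F : Type*} [Field K] [Field F] [Algebra K F]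
    (D : Divisor.degZero (K := K) (F := F)) (m : ℕ) (P : Place K F) :
    ((m • D : Divisor.degZero (K := K) (F := F)) : Divisor K F) P = m * (D : Divisor K F) P := by
  rw [AddSubgroup.coe_nsmul, Finsupp.smul_apply, nsmul_eq_mul]

theorem KTorsion_coeffMap_C {R S : Type*} [CommRing R] [CommRing S] (φ : R →+* S) (a : R) :
    coeffMap φ (HahnSeries.C a : LaurentSeries R) = HahnSeries.C (φ a) := by
  rw [HahnSeries.C_apply, coeffMap_single]
  rfl

set_option maxHeartbeats 1000000 in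
theorem K0_torsion {N : ℕ} [NeZero N] {A : ValuationSubring Qb} {ι : Type}
    {Φ : Divisor Qb (FB N) →+ (ι →₀ ℤ)} (hΦ : IsRedFun A N Φ) (hNF : NFHyp N A) {m : ℕ}
    (hKL : KLHyp N A m) (x : JZero N) (hx : x ∈ K0 N Φ) (hmx : m • x = 0) : x = 0 := by
  obtain ⟨D, hΦD, rfl⟩ := hx
  have hFF : IsFF Qb (FB N) := isFF_bar N
  rw [KTorsion_nsmul, KTorsion_isPrincipal] at hmx
  rw [KTorsion_isPrincipal]
  obtain ⟨f, hf, hDf⟩ := hmx
  obtain ⟨c, hc, y₁, y₂, h₁, h₂, hn₁, hn₂, hrel⟩ := hNF f hf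
  obtain ⟨z₁, hz₁⟩ : ∃ z : FB N, z = ⟨coeffMap A.subtype y₁, h₁⟩ := ⟨_, rfl⟩
  obtain ⟨z₂, hz₂⟩ : ∃ z : FB N, z = ⟨coeffMap A.subtype y₂, h₂⟩ := ⟨_, rfl⟩
  have c₁ : (z₁ : LaurentSeries Qb) = coeffMap A.subtype y₁ := by rw [hz₁]
  have c₂ : (z₂ : LaurentSeries Qb) = coeffMap A.subtype y₂ := by rw [hz₂]
  have hz₁0 : z₁ ≠ 0 := fun h => E_ne_zero_of_red hn₁ (by rw [← c₁, h]; rfl)
  have hz₂0 : z₂ ≠ 0 := fun h => E_ne_zero_of_red hn₂ (by rw [← c₂, h]; rfl)
  have hrel' : f * z₂ = algebraMap Qb (FB N) c * z₁ := by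
    apply Subtype.ext
    show (f : LaurentSeries Qb) * (z₂ : LaurentSeries Qb)
      = algebraMap Qb (LaurentSeries Qb) c * (z₁ : LaurentSeries Qb)
    rw [c₁, c₂, hrel]
  have hc' : algebraMap Qb (FB N) c ≠ 0 := by
    rw [Ne, map_eq_zero]; exact hc
  have hord : ∀ P : Place Qb (FB N), P.ord z₁ - P.ord z₂ = m * (D : Divisor Qb (FB N)) P := by
    intro P
    have h1 := congrArg P.ord hrel'
    rw [P.ord_mul hf hz₂0, P.ord_mul hc' hz₁0, ord_algebraMap P c, zero_add] at h1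
    rw [← KTorsion_nsmul_apply, hDf]
    omega
  have hdiv : FFLib.divOf Qb z₁ = FFLib.divOf Qb z₂ + m • (D : Divisor Qb (FB N)) := by
    ext P
    rw [Finsupp.add_apply, Finsupp.smul_apply, nsmul_eq_mul, FFLib.divOf_apply hFF,
      FFLib.divOf_apply hFF]
    have := hord P
    omega
  have hΦeq : Φ (FFLib.divOf Qb z₁) = Φ (FFLib.divOf Qb z₂) := by
    rw [hdiv, map_add, map_nsmul, hΦD, smul_zero, add_zero]
  obtain ⟨c', hc'0, hred⟩ := hΦ.red_of_eq y₁ y₂ h₁ h₂ hn₁ hn₂ _ _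
    (fun P => by rw [FFLib.divOf_apply hFF, hz₁]) (fun P => by rw [FFLib.divOf_apply hFF, hz₂]) hΦeq
  obtain ⟨a, ha⟩ := IsLocalRing.residue_surjective (R := A) c'
  have ha0 : (a : Qb) ≠ 0 := by
    intro h0
    apply hc'0
    have : a = 0 := Subtype.ext h0
    rw [← ha, this, map_zero]
  have hsub : coeffMap A.subtype (HahnSeries.C a * y₂)
      = ((algebraMap Qb (FB N) (a : Qb) * z₂ : FB N) : LaurentSeries Qb) := by
    rw [map_mul, KTorsion_coeffMap_C, ← c₂, ← FFLib.algebraMap_eq_C]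
    rfl
  have h₂' : coeffMap A.subtype (HahnSeries.C a * y₂) ∈ FB N := by
    rw [hsub]; exact (algebraMap Qb (FB N) (a : Qb) * z₂ : FB N).2
  have hred' : coeffMap (IsLocalRing.residue A) (HahnSeries.C a * y₂)
      = coeffMap (IsLocalRing.residue A) y₁ := by
    rw [map_mul, KTorsion_coeffMap_C, ha, hred]
  refine hKL y₁ (HahnSeries.C a * y₂) h₁ h₂' (by rw [hred']; exact hn₁) hred'.symm D ?_
  intro P
  have e : (⟨coeffMap A.subtype (HahnSeries.C a * y₂), h₂'⟩ : FB N)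
      = algebraMap Qb (FB N) (a : Qb) * z₂ := Subtype.ext hsub
  have ha' : algebraMap Qb (FB N) (a : Qb) ≠ 0 := by
    rw [Ne, map_eq_zero]; exact ha0
  rw [e, ← hz₁, P.ord_mul ha' hz₂0, ord_algebraMap P, zero_add]
  exact hord P

end Fermat.Agent.S37Lib
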