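import Fermat.Prelude.Def_HeckeGalois_EichlerShimura

/-!
# S37 (WA): from a subgroup `K₀` with the three properties to a specialization datum (pure algebra)

`K'' = {x | ∀ T : HeckeAlg, ∀ τ ∈ A.decompositionSubgroup K, T • τ • x ∈ K₀}` is a `HeckeAlg`-submodule,
stable under the decomposition group, contained in `K₀`.  `J' = J ⧸ K''`, `sp = mkQ`, `F` induced by `σ₀`.
Uses: the inertia group is normal in the decomposition group (it is a kernel), a conjugate of a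
Frobenius by an element of the decomposition group is a Frobenius, the quotient of two Frobenius
elements lies in the inertia group, and `smul_comm`.
-/

set_option autoImplicit false

open ModularCurve

namespace Fermat.Agent.S37Lib

section Aux

variable {K L : Type*} [Field K] [Field L] [Algebra K L] (A : ValuationSubring L)

lemma wiring_mem_inertia_iff (σ : L ≃ₐ[K] L) :
    σ ∈ A.inertiaSubgroupIn K ↔ ∃ hσ : σ ∈ A.decompositionSubgroup K,
      ∀ x : IsLocalRing.ResidueField A, (⟨σ, hσ⟩ : A.decompositionSubgroup K) • x = x := by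
  unfold ValuationSubring.inertiaSubgroupIn
  rw [Subgroup.mem_map]
  constructor
  · rintro ⟨⟨s, hs⟩, hker, rfl⟩
    refine ⟨hs, fun x => ?_⟩
    have h1 : MulSemiringAction.toRingAut (A.decompositionSubgroup K)
        (IsLocalRing.ResidueField A) ⟨s, hs⟩ = 1 := hker
    exact congrArg (fun e : RingAut (IsLocalRing.ResidueField A) => e x) h1
  · rintro ⟨hσ, h⟩
    refine ⟨⟨σ, hσ⟩, ?_, rfl⟩
    show MulSemiringAction.toRingAut (A.decompositionSubgroup K)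
        (IsLocalRing.ResidueField A) ⟨σ, hσ⟩ = 1
    ext x
    exact h x

lemma wiring_inertia_le : A.inertiaSubgroupIn K ≤ A.decompositionSubgroup K := by
  intro σ hσ
  exact ((wiring_mem_inertia_iff A σ).1 hσ).1

lemma wiring_conj_inertia {σ τ : L ≃ₐ[K] L} (hσ : σ ∈ A.inertiaSubgroupIn K)
    (hτ : τ ∈ A.decompositionSubgroup K) : τ * σ * τ⁻¹ ∈ A.inertiaSubgroupIn K := by
  obtain ⟨hσD, h⟩ := (wiring_mem_inertia_iff A σ).1 hσ
  refine (wiring_mem_inertia_iff A _).2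
    ⟨(A.decompositionSubgroup K).mul_mem ((A.decompositionSubgroup K).mul_mem hτ hσD)
      ((A.decompositionSubgroup K).inv_mem hτ), fun x => ?_⟩
  have e : (⟨τ * σ * τ⁻¹, (A.decompositionSubgroup K).mul_mem
      ((A.decompositionSubgroup K).mul_mem hτ hσD) ((A.decompositionSubgroup K).inv_mem hτ)⟩ :
      A.decompositionSubgroup K) = ⟨τ, hτ⟩ * ⟨σ, hσD⟩ * ⟨τ, hτ⟩⁻¹ := rfl
  rw [e, mul_smul, mul_smul, h, smul_inv_smul]

lemma wiring_conj_frob {σ τ : L ≃ₐ[K] L} {ℓ : ℕ} (hσ : A.IsFrobeniusAt σ ℓ)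
    (hτ : τ ∈ A.decompositionSubgroup K) : A.IsFrobeniusAt (τ * σ * τ⁻¹) ℓ := by
  obtain ⟨hσD, h⟩ := hσ
  refine ⟨(A.decompositionSubgroup K).mul_mem ((A.decompositionSubgroup K).mul_mem hτ hσD)
      ((A.decompositionSubgroup K).inv_mem hτ), fun x => ?_⟩
  have e : (⟨τ * σ * τ⁻¹, (A.decompositionSubgroup K).mul_mem
      ((A.decompositionSubgroup K).mul_mem hτ hσD) ((A.decompositionSubgroup K).inv_mem hτ)⟩ :
      A.decompositionSubgroup K) = ⟨τ, hτ⟩ * ⟨σ, hσD⟩ * ⟨τ, hτ⟩⁻¹ := rfl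
  rw [e, mul_smul, mul_smul, h, smul_pow', smul_inv_smul]

lemma wiring_frob_div {σ σ₀ : L ≃ₐ[K] L} {ℓ : ℕ} (hσ : A.IsFrobeniusAt σ ℓ)
    (hσ₀ : A.IsFrobeniusAt σ₀ ℓ) : σ₀⁻¹ * σ ∈ A.inertiaSubgroupIn K := by
  obtain ⟨hσD, h⟩ := hσ
  obtain ⟨hσ₀D, h₀⟩ := hσ₀
  refine (wiring_mem_inertia_iff A _).2
    ⟨(A.decompositionSubgroup K).mul_mem ((A.decompositionSubgroup K).inv_mem hσ₀D) hσD,
      fun x => ?_⟩
  have e : (⟨σ₀⁻¹ * σ, (A.decompositionSubgroup K).mul_mem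
      ((A.decompositionSubgroup K).inv_mem hσ₀D) hσD⟩ : A.decompositionSubgroup K) =
      ⟨σ₀, hσ₀D⟩⁻¹ * ⟨σ, hσD⟩ := rfl
  rw [e, mul_smul, h, ← h₀, inv_smul_smul]

end Aux

theorem specialization_of_K0 {K L : Type*} [Field K] [Field L] [Algebra K L] (p : ℕ)
    (J : Type) [AddCommGroup J] [Module HeckeAlg J] [DistribMulAction (L ≃ₐ[K] L) J]
    [SMulCommClass (L ≃ₐ[K] L) HeckeAlg J] (A : ValuationSubring L) (ℓ : ℕ) (hℓ : ℓ.Prime)
    (σ₀ : L ≃ₐ[K] L) (hσ₀ : A.IsFrobeniusAt σ₀ ℓ) (K₀ : AddSubgroup J)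
    (ha : ∀ x ∈ K₀, (∃ n : ℕ, p ^ n • x = 0) → x = 0)
    (hb : ∀ τ ∈ A.inertiaSubgroupIn K, ∀ x : J, τ • x - x ∈ K₀)
    (hc : ∀ σ : L ≃ₐ[K] L, A.IsFrobeniusAt σ ℓ → ∀ x : J,
      σ • σ • x - heckeGen ⟨ℓ, hℓ⟩ • (σ • x) + ℓ • x ∈ K₀) :
    ∃ (J' : Type) (_ : AddCommGroup J') (_ : Module HeckeAlg J') (sp : J →+ J') (F : J' →+ J'),
      IsSpecialization (K := K) p J J' A ℓ sp F ∧ SpecialFibreRelation J' ℓ hℓ F := by
  classical
  let K2 : Submodule HeckeAlg J :=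
    { carrier := {x | ∀ T : HeckeAlg, ∀ τ ∈ A.decompositionSubgroup K, T • τ • x ∈ K₀}
      zero_mem' := by
        intro T τ _
        rw [smul_zero, smul_zero]
        exact K₀.zero_mem
      add_mem' := by
        intro x y hx hy T τ hτ
        rw [smul_add, smul_add]
        exact K₀.add_mem (hx T τ hτ) (hy T τ hτ)
      smul_mem' := by
        intro c x hx T τ hτ
        rw [smul_comm τ c x, ← mul_smul]
        exact hx (T * c) τ hτ }
  have hK2 : ∀ x : J, x ∈ K2 ↔ ∀ T : HeckeAlg, ∀ τ ∈ A.decompositionSubgroup K, T • τ • x ∈ K₀ :=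
    fun x => Iff.rfl
  have hstab : ∀ τ ∈ A.decompositionSubgroup K, ∀ x ∈ K2, τ • x ∈ K2 := by
    intro τ hτ x hx T τ' hτ'
    rw [← mul_smul]
    exact hx T (τ' * τ) ((A.decompositionSubgroup K).mul_mem hτ' hτ)
  have hle : ∀ x ∈ K2, x ∈ K₀ := by
    intro x hx
    have := hx 1 1 (A.decompositionSubgroup K).one_mem
    rwa [one_smul, one_smul] at this
  have hin : ∀ σ ∈ A.inertiaSubgroupIn K, ∀ x : J, σ • x - x ∈ K2 := by
    intro σ hσ x T τ hτ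
    have h1 := hb (τ * σ * τ⁻¹) (wiring_conj_inertia A hσ hτ) (T • τ • x)
    have h2 : (τ * σ * τ⁻¹) • T • τ • x - T • τ • x = T • τ • (σ • x - x) := by
      rw [smul_comm (τ * σ * τ⁻¹) T, mul_smul, mul_smul, inv_smul_smul, smul_sub, smul_sub]
    rwa [h2] at h1
  have hσ₀D := hσ₀.mem_decompositionSubgroup
  let φ : J →ₗ[HeckeAlg] J := DistribSMul.toLinearMap HeckeAlg J σ₀
  have hφ : ∀ x, φ x = σ₀ • x := fun x => rfl
  have hφK : K2 ≤ K2.comap φ := fun x hx => hstab σ₀ hσ₀D x hx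
  refine ⟨J ⧸ K2, inferInstance, inferInstance, K2.mkQ.toAddMonoidHom,
    (K2.mapQ K2 φ hφK).toAddMonoidHom, ⟨?_, ?_, ?_, ?_⟩, ?_⟩
  · intro T x
    exact map_smul K2.mkQ T x
  · intro σ hσ x
    show K2.mkQ (σ • x) = K2.mkQ x
    rw [← sub_eq_zero, ← map_sub, Submodule.mkQ_apply, Submodule.Quotient.mk_eq_zero]
    exact hin σ hσ x
  · intro σ hσ x
    show K2.mkQ (σ • x) = K2.mapQ K2 φ hφK (K2.mkQ x)
    rw [Submodule.mkQ_apply, Submodule.mkQ_apply, Submodule.mapQ_apply, hφ, ← sub_eq_zero,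
      ← Submodule.Quotient.mk_sub, Submodule.Quotient.mk_eq_zero]
    have h1 := hstab σ₀ hσ₀D _ (hin (σ₀⁻¹ * σ) (wiring_frob_div A hσ hσ₀) x)
    rwa [smul_sub, ← mul_smul, mul_inv_cancel_left] at h1
  · intro x hx h0
    have h1 : K2.mkQ x = 0 := h0
    rw [Submodule.mkQ_apply, Submodule.Quotient.mk_eq_zero] at h1
    exact ha x (hle x h1) hx
  · intro y
    obtain ⟨x, rfl⟩ := K2.mkQ_surjective y
    show K2.mapQ K2 φ hφK (K2.mapQ K2 φ hφK (K2.mkQ x)) -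
      heckeGen ⟨ℓ, hℓ⟩ • K2.mapQ K2 φ hφK (K2.mkQ x) + ℓ • K2.mkQ x = 0
    rw [Submodule.mkQ_apply, Submodule.mapQ_apply, Submodule.mapQ_apply, hφ, hφ,
      ← Submodule.Quotient.mk_smul, ← Submodule.Quotient.mk_sub]
    have e : (ℓ : ℕ) • (Submodule.Quotient.mk x : J ⧸ K2) = Submodule.Quotient.mk (ℓ • x) :=
      (map_nsmul K2.mkQ ℓ x).symm
    rw [e, ← Submodule.Quotient.mk_add, Submodule.Quotient.mk_eq_zero]
    intro T τ hτ
    have h1 := hc (τ * σ₀ * τ⁻¹) (wiring_conj_frob A hσ₀ hτ) (T • τ • x)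
    have h2 : (τ * σ₀ * τ⁻¹) • T • τ • x = T • τ • σ₀ • x := by
      rw [smul_comm (τ * σ₀ * τ⁻¹) T, mul_smul, mul_smul, inv_smul_smul]
    have h3 : (τ * σ₀ * τ⁻¹) • T • τ • σ₀ • x = T • τ • σ₀ • σ₀ • x := by
      rw [smul_comm (τ * σ₀ * τ⁻¹) T, mul_smul, mul_smul, inv_smul_smul]
    rw [h2, h3] at h1
    have h4 : T • τ • (σ₀ • σ₀ • x - heckeGen ⟨ℓ, hℓ⟩ • σ₀ • x + ℓ • x) =
        T • τ • σ₀ • σ₀ • x - heckeGen ⟨ℓ, hℓ⟩ • T • τ • σ₀ • x + ℓ • T • τ • x := by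
      rw [smul_add, smul_add, smul_sub, smul_sub, smul_comm τ (heckeGen ⟨ℓ, hℓ⟩),
        smul_comm T (heckeGen ⟨ℓ, hℓ⟩)]
      congr 1
      have e1 : τ • (ℓ • x) = ℓ • τ • x := (map_nsmul (DistribSMul.toAddMonoidHom J τ) ℓ x)
      have e2 : T • (ℓ • τ • x) = ℓ • T • τ • x :=
        (map_nsmul (DistribSMul.toAddMonoidHom J T) ℓ (τ • x))
      rw [e1, e2]
    rw [h4]
    exact h1

end Fermat.Agent.S37Lib
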