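import Fermat.Agent.S37.RedFun
import Fermat.Agent.S37.KTorsion
import Fermat.Agent.S37.KInertia
import Fermat.Agent.S37.KFrob
import Fermat.Agent.S37.Wiring
import Fermat.Agent.Lib.FrobeniusExists

/-!
# S37 (W): the statement, with the two inputs of the S18 library which were not yet in main
(`riemann_upper`, `kummer_lemma`) as hypotheses
-/

set_option autoImplicit false
set_option synthInstance.maxHeartbeats 400000
set_option linter.style.haveILetI false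

open AlgebraicCurve ModularCurve CongruenceSubgroup

namespace Fermat.Agent.S37Lib

open Fermat.Agent.S18Lib Fermat.Agent.S24Lib Fermat.Agent.ESLib

theorem s37_of_hyps (N p : ℕ) [NeZero N] (hcomm : HeckeOperatorsCommuteBar N)
    (hup : ∀ {ℓ : ℕ} [Fact ℓ.Prime] (M : ℕ) [NeZero M], ¬ ℓ ∣ M → (2 ∣ M ∨ 3 ∣ M) →
      ∀ (A : ValuationSubring Qb), A.LiesOverPrime ℓ → ∀ c : ℤ,
      ∃ E : Divisor (kk A) (FT A M), c ≤ Divisor.degree E ∧
        ell E ≤ Divisor.degree E + 1 - (Module.finrank ℂ (CuspForm (Gamma0 M) 2) : ℤ))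
    (kl : ∀ {ℓ : ℕ} [Fact ℓ.Prime], ¬ ℓ ∣ N → ∀ (A : ValuationSubring Qb), A.LiesOverPrime ℓ →
      ∀ (m : ℕ), ¬ ℓ ∣ m → KLHyp N A m) :
    letI := heckeModuleBar N
    ∀ (_ : SMulCommClass (AlgebraicClosure ℚ ≃ₐ[ℚ] AlgebraicClosure ℚ) HeckeAlg (JZero N)),
      SpecializationExists (K := ℚ) (L := AlgebraicClosure ℚ) N p (JZero N) := by
  letI := heckeModuleBar N
  intro hsc ℓ hℓ hℓNp A hA
  haveI : Fact ℓ.Prime := ⟨hℓ⟩
  have hℓN : ¬ ℓ ∣ N := fun h => hℓNp (Dvd.dvd.mul_right h p)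
  have hℓp : ¬ ℓ ∣ p := fun h => hℓNp (Dvd.dvd.mul_left h N)
  obtain ⟨ι, Φ, hΦ⟩ := exists_redFun N hℓN A hA (fun M _ h1 h2 c => hup M h1 h2 A hA c)
  have hNF : NFHyp N A := nfHyp_of_redData (exists_redData N hℓN A hA)
  obtain ⟨σ₀, hσ₀⟩ := Fermat.Agent.FrobLib.exists_isFrobeniusAt A hℓ hA
  refine specialization_of_K0 (K := ℚ) (L := AlgebraicClosure ℚ) p (JZero N) A ℓ hℓ σ₀ hσ₀
    (K0 N Φ) ?_ ?_ ?_
  · rintro x hx ⟨n, hn⟩
    exact K0_torsion hΦ hNF (kl hℓN A hA (p ^ n) (fun h => hℓp (hℓ.dvd_of_dvd_pow h))) x hx hn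
  · intro τ hτ x
    exact K0_inertia hΦ hNF τ hτ x
  · intro σ hσ x
    have h1 : heckeGen ⟨ℓ, hℓ⟩ • (σ • x) = heckeOperatorBar N ⟨ℓ, hℓ⟩ (σ • x) :=
      heckeModuleBar_heckeGen_smul hcomm ⟨ℓ, hℓ⟩ (σ • x)
    have h2 := K0_frob hℓ hℓN hA hΦ hNF σ hσ x
    rw [← h1] at h2
    exact h2

end Fermat.Agent.S37Lib
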