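import Fermat.Agent.S37.Defs
import Fermat.Agent.S18.GoodX
import Fermat.Agent.S18.DegLe

/-!
# S37 (RH1): the base divisor of the reduction of `L(E)` has the degree of `E` (`deg E` large)

Setting: `R : RedData A resK F Ft` and an integer `g` with `ℓ(E) ≥ deg E + 1 - g` on `F` and
`ℓ(E) ≤ deg E + 1 - g` for divisors of arbitrarily large degree on `Ft` (equality of the genera).

Proof = the proof of `S18Lib.exists_good_x` (S18/GoodX.lean), for a general `E` instead of `N P`:
`V = redSpace R hres (L(E))` has dimension `ℓ(E)` (`finrank_redSpace`), `V ≤ L(B)`.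
* `deg B ≥ deg E`: `ℓ(B) ≥ ℓ(E) ≥ deg E + 1 - g`, `ℓ(B) ≤ deg B + 1`, so `deg B` is large and
  `ℓ(B) = deg B + 1 - genusR ≤ deg B + 1 - g` (`riemann_equality`, `g ≤ genusR` by `hup`).
* `deg B ≤ deg E`: two generic elements `a b ∈ V` (`gx_generic`), `poleDiv (a/b) = div b + B`
  (`gx_poleDiv_div`), so `[Ft : k(a/b)] = deg B`; lifts `α β`, `x = α/β ∈ O`,
  `[F : K(x)] ≤ deg E` (`gx_poleDiv_div_le`) and `finrank_red_le`.
-/

set_option autoImplicit false

open AlgebraicCurve IntermediateField

namespace Fermat.Agent.S37Lib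

open Fermat.Agent.S18Lib Fermat.Agent.S24Lib Fermat.Agent.FFLib

theorem base_degree {K k F Ft : Type*} [Field K] [Field k] [Field F] [Algebra K F]
    [Field Ft] [Algebra k Ft] [IsAlgClosed K] [IsAlgClosed k]
    (hF : IsFF K F) (hFt : IsFF k Ft)
    {A : ValuationSubring K} {resK : A →+* k} (hres : Function.Surjective resK)
    (R : RedData A resK F Ft) (g : ℤ)
    (hlow : ∀ E : Divisor K F, Divisor.degree E + 1 - g ≤ (FFLib.ell E : ℤ))
    (hup : ∀ c : ℤ, ∃ E : Divisor k Ft, c ≤ Divisor.degree E ∧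
      (FFLib.ell E : ℤ) ≤ Divisor.degree E + 1 - g) :
    ∃ c₀ : ℤ, ∀ E : Divisor K F, c₀ ≤ Divisor.degree E →
      redSpace R hres (riemannRochSpace E) ≠ ⊥ ∧
      ∀ B : Divisor k Ft, IsBase (redSpace R hres (riemannRochSpace E)) B →
        Divisor.degree B = Divisor.degree E := by
  classical
  -- comparison of the genera
  obtain ⟨c, hc⟩ := riemann_equality hFt
  have hg : g ≤ (genusR k Ft : ℤ) := by
    obtain ⟨E0, h1, h2⟩ := hup c
    have := hc E0 h1
    omega
  refine ⟨max 1 (max (c + g) (g + 1)), fun E hE => ?_⟩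
  have hN1 : 1 ≤ Divisor.degree E := le_trans (le_max_left _ _) hE
  have hN2 : c + g ≤ Divisor.degree E :=
    le_trans (le_trans (le_max_left _ _) (le_max_right _ _)) hE
  have hN3 : g + 1 ≤ Divisor.degree E :=
    le_trans (le_trans (le_max_right _ _) (le_max_right _ _)) hE
  have hlowE := hlow E
  have hfdU : FiniteDimensional K (riemannRochSpace E) := finiteDimensional_L hF E
  have hfdV : FiniteDimensional k (redSpace R hres (riemannRochSpace E)) :=
    finiteDimensional_redSpace R hres _
  set V := redSpace R hres (riemannRochSpace E) with hVdef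
  have hdimV : Module.finrank k V = FFLib.ell E := finrank_redSpace R hres _
  have hVbot : V ≠ ⊥ := by
    intro h0
    rw [h0, finrank_bot] at hdimV
    omega
  refine ⟨hVbot, ?_⟩
  rintro BB ⟨hle, hex⟩
  have hfdBB : FiniteDimensional k (riemannRochSpace BB) := finiteDimensional_L hFt BB
  have h1 : Module.finrank k V ≤ FFLib.ell BB := Submodule.finrank_mono hle
  have hdeg0 : 0 ≤ Divisor.degree BB := by
    by_contra hneg
    push Not at hneg
    have := ell_eq_zero_of_degree_neg hFt hneg
    omega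
  have h2 := ell_le_degree_add_one hFt hdeg0
  have h3 : c ≤ Divisor.degree BB := by omega
  have h4 := hc BB h3
  have hdegBB : Divisor.degree E ≤ Divisor.degree BB := by omega
  -- two generic elements
  obtain ⟨b, hbV, hb0, -⟩ := gx_generic V hVbot BB hle hex ∅
  obtain ⟨a, haV, ha0, haT⟩ := gx_generic V hVbot BB hle hex (divOf k b + BB).support
  have hpole := gx_poleDiv_div hFt BB (hle haV) (hle hbV) ha0 hb0 haT
  have hdegpole : Divisor.degree (poleDiv k (a / b)) = Divisor.degree BB := by
    rw [hpole, map_add, degree_divOf hFt, zero_add]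
  have htr : Transcendental k (a / b) := gx_transcendental_of_degree_pos hFt (by omega)
  have hfin : (Module.finrank k⟮a / b⟯ Ft : ℤ) = Divisor.degree BB := by
    rw [← degree_poleDiv hFt htr, hdegpole]
  -- lifts
  obtain ⟨α, hαU, hα⟩ := haV
  obtain ⟨β, hβU, hβ⟩ := hbV
  have hβu : IsUnit β := R.isUnit_of_red_ne_zero β (by rw [hβ]; exact hb0)
  obtain ⟨βu, rfl⟩ := hβu
  set x : R.O := α * ((βu⁻¹ : R.Oˣ) : R.O) with hx
  have hredx : R.red x = a / b := by
    rw [hx, map_mul, hα, div_eq_mul_inv]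
    congr 1
    apply eq_inv_of_mul_eq_one_left
    rw [← hβ, ← map_mul, Units.inv_mul, map_one]
  have hxF : ((x : R.O) : F) = (α : F) / ((βu : R.O) : F) := by
    rw [hx, div_eq_mul_inv]
    show (α : F) * (((βu⁻¹ : R.Oˣ) : R.O) : F) = _
    congr 1
    apply eq_inv_of_mul_eq_one_left
    have := congrArg (Subtype.val) (Units.inv_mul βu)
    exact this
  have hα0 : (α : F) ≠ 0 := by
    intro h0
    apply ha0
    have h5 : α = 0 := Subtype.ext h0
    rw [← hα, h5, map_zero]
  have hβ0 : ((βu : R.O) : F) ≠ 0 := by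
    intro h0
    apply hb0
    have h5 : (βu : R.O) = 0 := Subtype.ext h0
    rw [← hβ, h5, map_zero]
  have htr' : Transcendental k (R.red x) := by rw [hredx]; exact htr
  have hxtr : Transcendental K ((x : R.O) : F) := gx_transcendental_of_red R x htr'
  have hle2 := gx_degree_mono hF (gx_poleDiv_div_le hF E hαU hβU hα0 hβ0)
  rw [map_add, degree_divOf hF, zero_add, ← hxF, degree_poleDiv hF hxtr] at hle2
  have hle3 := finrank_red_le hF hFt R x htr'
  rw [hredx] at hle3
  have hle4 : (Module.finrank k⟮a / b⟯ Ft : ℤ) ≤ (Module.finrank K⟮((x : R.O) : F)⟯ F : ℤ) := by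
    exact_mod_cast hle3
  omega

end Fermat.Agent.S37Lib
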