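import Fermat.Agent.S37.Defs
import Fermat.Agent.S18.GoodX
import Fermat.Agent.S18.GoodReduction

/-!
# S37 (RH2): operations on base divisors of the reductions `V(E) = redSpace R hres (L(E))`

* `exists_isBase`, `IsBase.unique`
* `base_mono` : `E ≤ E'` implies `B ≤ B'`
* `base_add_le` : `V(E₁) V(E₂) ⊆ V(E₁+E₂)`, hence `B₁ + B₂ ≤ B₃`
* `base_unit` : for `u ∈ O` with `red u ≠ 0`, `V(E) = red u • V(E + div u)`, hence
  `B' = B + div (red u)`
-/

set_option autoImplicit false

open AlgebraicCurve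

namespace Fermat.Agent.S37Lib

open Fermat.Agent.S18Lib Fermat.Agent.S24Lib Fermat.Agent.FFLib

variable {K k F Ft : Type*} [Field K] [Field k] [Field F] [Algebra K F] [Field Ft] [Algebra k Ft]
  {A : ValuationSubring K} {resK : A →+* k}

theorem exists_isBase [IsAlgClosed K] [IsAlgClosed k] (hF : IsFF K F) (hFt : IsFF k Ft)
    (hres : Function.Surjective resK) (R : RedData A resK F Ft) (E : Divisor K F)
    (hE : redSpace R hres (riemannRochSpace E) ≠ ⊥) :
    ∃ B : Divisor k Ft, IsBase (redSpace R hres (riemannRochSpace E)) B := by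
  have hfdU : FiniteDimensional K (riemannRochSpace E) := finiteDimensional_L hF E
  have hfdV : FiniteDimensional k (redSpace R hres (riemannRochSpace E)) :=
    finiteDimensional_redSpace R hres _
  obtain ⟨B, h1, h2⟩ := gx_exists_BB hFt _ hE
  exact ⟨B, h1, h2⟩

/-- the base divisor of a subspace is smaller -/
theorem BaseOps_le {V V' : Submodule k Ft} (hV : V ≤ V') {B B' : Divisor k Ft} (h : IsBase V B)
    (h' : IsBase V' B') : B ≤ B' := by
  intro Q
  obtain ⟨e, heV, he0, heQ⟩ := h.2 Q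
  have h1 := ((mem_L_iff.mp (h'.1 (hV heV))) Q).resolve_left he0
  omega

theorem IsBase.unique {V : Submodule k Ft} {B B' : Divisor k Ft} (h : IsBase V B)
    (h' : IsBase V B') : B = B' :=
  le_antisymm (BaseOps_le le_rfl h h') (BaseOps_le le_rfl h' h)

theorem BaseOps_L_mono {K F : Type*} [Field K] [Field F] [Algebra K F] {E E' : Divisor K F}
    (hE : E ≤ E') : riemannRochSpace E ≤ riemannRochSpace E' := by
  intro f hf
  rw [mem_L_iff] at hf ⊢
  intro v
  rcases hf v with h0 | h1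
  · exact Or.inl h0
  · refine Or.inr ?_
    have := hE v
    omega

theorem base_mono (hres : Function.Surjective resK) (R : RedData A resK F Ft)
    {E E' : Divisor K F} (hE : E ≤ E') {B B' : Divisor k Ft}
    (hB : IsBase (redSpace R hres (riemannRochSpace E)) B)
    (hB' : IsBase (redSpace R hres (riemannRochSpace E')) B') : B ≤ B' :=
  BaseOps_le (redSpace_mono hres (BaseOps_L_mono hE)) hB hB'

theorem BaseOps_mul_mem {K F : Type*} [Field K] [Field F] [Algebra K F] {E₁ E₂ : Divisor K F}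
    {f₁ f₂ : F} (h₁ : f₁ ∈ riemannRochSpace E₁) (h₂ : f₂ ∈ riemannRochSpace E₂) :
    f₁ * f₂ ∈ riemannRochSpace (E₁ + E₂) := by
  rw [mem_L_iff] at h₁ h₂ ⊢
  intro v
  by_cases h10 : f₁ = 0
  · exact Or.inl (by rw [h10, zero_mul])
  by_cases h20 : f₂ = 0
  · exact Or.inl (by rw [h20, mul_zero])
  refine Or.inr ?_
  have a1 := (h₁ v).resolve_left h10
  have a2 := (h₂ v).resolve_left h20
  rw [v.ord_mul h10 h20, Finsupp.add_apply]
  omega

theorem base_add_le (hres : Function.Surjective resK) (R : RedData A resK F Ft)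
    {E₁ E₂ : Divisor K F} {B₁ B₂ B₃ : Divisor k Ft}
    (h₁ : IsBase (redSpace R hres (riemannRochSpace E₁)) B₁)
    (h₂ : IsBase (redSpace R hres (riemannRochSpace E₂)) B₂)
    (h₃ : IsBase (redSpace R hres (riemannRochSpace (E₁ + E₂))) B₃) : B₁ + B₂ ≤ B₃ := by
  intro Q
  obtain ⟨e₁, ⟨x₁, hx₁, rfl⟩, he₁0, he₁Q⟩ := h₁.2 Q
  obtain ⟨e₂, ⟨x₂, hx₂, rfl⟩, he₂0, he₂Q⟩ := h₂.2 Q
  have hmem : R.red x₁ * R.red x₂ ∈ redSpace R hres (riemannRochSpace (E₁ + E₂)) :=
    ⟨x₁ * x₂, BaseOps_mul_mem hx₁ hx₂, map_mul _ _ _⟩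
  have h1 := ((mem_L_iff.mp (h₃.1 hmem)) Q).resolve_left (mul_ne_zero he₁0 he₂0)
  rw [Q.ord_mul he₁0 he₂0] at h1
  rw [Finsupp.add_apply]
  omega

theorem base_unit (hres : Function.Surjective resK) (R : RedData A resK F Ft)
    (u : R.O) (hu : R.red u ≠ 0) (D : Divisor K F) (hD : ∀ v, D v = v.ord ((u : R.O) : F))
    {E : Divisor K F} {B B' : Divisor k Ft}
    (hB : IsBase (redSpace R hres (riemannRochSpace E)) B)
    (hB' : IsBase (redSpace R hres (riemannRochSpace (E + D))) B') (Q : Place k Ft) :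
    B' Q = B Q + Q.ord (R.red u) := by
  obtain ⟨uu, rfl⟩ := R.isUnit_of_red_ne_zero u hu
  have hu0 : ((uu : R.O) : F) ≠ 0 := by
    intro h0
    apply hu
    have h5 : (uu : R.O) = 0 := Subtype.ext h0
    rw [h5, map_zero]
  have hinvF : (((uu⁻¹ : R.Oˣ) : R.O) : F) = (((uu : R.O) : F))⁻¹ := by
    apply eq_inv_of_mul_eq_one_left
    exact congrArg (Subtype.val) (Units.inv_mul uu)
  have hinvR : R.red ((uu⁻¹ : R.Oˣ) : R.O) = (R.red (uu : R.O))⁻¹ := by
    apply eq_inv_of_mul_eq_one_left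
    rw [← map_mul, Units.inv_mul, map_one]
  apply le_antisymm
  · obtain ⟨e, ⟨x, hx, rfl⟩, he0, heQ⟩ := hB'.2 Q
    have hx0 : ((x : R.O) : F) ≠ 0 := by
      intro h0
      apply he0
      have h5 : x = 0 := Subtype.ext h0
      rw [h5, map_zero]
    have hmem : R.red (uu : R.O) * R.red x ∈ redSpace R hres (riemannRochSpace E) := by
      refine ⟨(uu : R.O) * x, ?_, map_mul _ _ _⟩
      show ((uu : R.O) : F) * ((x : R.O) : F) ∈ _
      rw [mem_L_iff] at hx ⊢
      intro v
      refine Or.inr ?_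
      have a1 := (hx v).resolve_left hx0
      rw [Finsupp.add_apply, hD v] at a1
      rw [v.ord_mul hu0 hx0]
      omega
    have h1 := ((mem_L_iff.mp (hB.1 hmem)) Q).resolve_left (mul_ne_zero hu he0)
    rw [Q.ord_mul hu he0] at h1
    omega
  · obtain ⟨e, ⟨x, hx, rfl⟩, he0, heQ⟩ := hB.2 Q
    have hx0 : ((x : R.O) : F) ≠ 0 := by
      intro h0
      apply he0
      have h5 : x = 0 := Subtype.ext h0
      rw [h5, map_zero]
    have hmem : (R.red (uu : R.O))⁻¹ * R.red x ∈
        redSpace R hres (riemannRochSpace (E + D)) := by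
      refine ⟨((uu⁻¹ : R.Oˣ) : R.O) * x, ?_, by rw [map_mul, hinvR]⟩
      show (((uu⁻¹ : R.Oˣ) : R.O) : F) * ((x : R.O) : F) ∈ _
      rw [hinvF]
      rw [mem_L_iff] at hx ⊢
      intro v
      refine Or.inr ?_
      have a1 := (hx v).resolve_left hx0
      rw [Finsupp.add_apply, hD v, v.ord_mul (inv_ne_zero hu0) hx0, v.ord_inv]
      omega
    have h1 := ((mem_L_iff.mp (hB'.1 hmem)) Q).resolve_left
      (mul_ne_zero (inv_ne_zero hu) he0)
    rw [Q.ord_mul (inv_ne_zero hu) he0, Q.ord_inv] at h1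
    omega

/-- two comparable divisors of the same degree are equal -/
theorem eq_of_le_of_degree [IsAlgClosed k] (hFt : IsFF k Ft) {B B' : Divisor k Ft} (h : B ≤ B')
    (hd : Divisor.degree B = Divisor.degree B') : B = B' := by
  ext Q
  have h1 := ma_eq_zero_of_degree hFt (B' - B)
    (fun v => by rw [Finsupp.sub_apply]; have := h v; omega)
    (by rw [map_sub, hd, sub_self]) Q
  rw [Finsupp.sub_apply] at h1
  omega

/-- an effective divisor of degree one is a place -/
theorem exists_eq_single [IsAlgClosed k] (hFt : IsFF k Ft) {B : Divisor k Ft} (h0 : 0 ≤ B)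
    (h1 : Divisor.degree B = 1) : ∃ Q : Place k Ft, B = Finsupp.single Q 1 := by
  classical
  have hne : B ≠ 0 := by
    intro h
    rw [h, map_zero] at h1
    exact zero_ne_one h1
  obtain ⟨Q, hQ⟩ := Finsupp.ne_iff.mp hne
  rw [Finsupp.zero_apply] at hQ
  have hQ0 : 0 ≤ B Q := h0 Q
  refine ⟨Q, (eq_of_le_of_degree hFt ?_ ?_).symm⟩
  · intro v
    by_cases hv : v = Q
    · subst hv
      rw [Finsupp.single_eq_same]
      omega
    · rw [Finsupp.single_eq_of_ne hv]
      exact h0 v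
  · rw [h1, Divisor.degree_single, deg_eq_one hFt Q]
    simp

end Fermat.Agent.S37Lib
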