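import Fermat.Agent.ES.ESCore
import Fermat.Prelude.Def_ModularCurve_HeckeModule

/-!
# S37 library: basic definitions

* `nrm D` : the `ℓ¹`-norm of an element of a free abelian group `ι →₀ ℤ`
* `IsRedFun A N Φ` : `Φ` is a "reduction functional" on the divisors of `X₀(N)`
* `K0 N Φ` : the classes of the degree zero divisors killed by `Φ`
* `IsBase V B` : `B` is the base divisor of a space of functions `V`
-/

set_option autoImplicit false
set_option synthInstance.maxHeartbeats 400000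

open AlgebraicCurve ModularCurve

namespace Fermat.Agent.S37Lib

open Fermat.Agent.S18Lib Fermat.Agent.S24Lib Fermat.Agent.ESLib

/-- the `ℓ¹`-norm on a free abelian group -/
def nrm {ι : Type*} (D : ι →₀ ℤ) : ℕ := D.sum fun _ n => n.natAbs

/-- `B` is the base divisor of the space of functions `V`: the smallest divisor with
`V ≤ L(B)` -/
def IsBase {k Ft : Type*} [Field k] [Field Ft] [Algebra k Ft] (V : Submodule k Ft)
    (B : Divisor k Ft) : Prop :=
  V ≤ riemannRochSpace B ∧ ∀ Q : Place k Ft, ∃ e ∈ V, e ≠ 0 ∧ Q.ord e = -B Q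

/-- A reduction functional on the divisors of `X₀(N)`: an additive map to a free abelian group,
bounded on places, which sees exactly the reduction (up to constants) of `A`-integral
`q`-expansions. -/
structure IsRedFun (A : ValuationSubring Qb) (N : ℕ) {ι : Type}
    (Φ : Divisor Qb (FB N) →+ (ι →₀ ℤ)) : Prop where
  bdd : ∃ C : ℕ, ∀ P : Place Qb (FB N), nrm (Φ (Finsupp.single P 1)) ≤ C
  eq_of_red : ∀ (y₁ y₂ : LaurentSeries A) (h₁ : coeffMap A.subtype y₁ ∈ FB N)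
    (h₂ : coeffMap A.subtype y₂ ∈ FB N), coeffMap (IsLocalRing.residue A) y₂ ≠ 0 →
    coeffMap (IsLocalRing.residue A) y₁ = coeffMap (IsLocalRing.residue A) y₂ →
    ∀ D₁ D₂ : Divisor Qb (FB N),
      (∀ P, D₁ P = P.ord (⟨coeffMap A.subtype y₁, h₁⟩ : FB N)) →
      (∀ P, D₂ P = P.ord (⟨coeffMap A.subtype y₂, h₂⟩ : FB N)) → Φ D₁ = Φ D₂
  red_of_eq : ∀ (y₁ y₂ : LaurentSeries A) (h₁ : coeffMap A.subtype y₁ ∈ FB N)
    (h₂ : coeffMap A.subtype y₂ ∈ FB N), coeffMap (IsLocalRing.residue A) y₁ ≠ 0 →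
    coeffMap (IsLocalRing.residue A) y₂ ≠ 0 →
    ∀ D₁ D₂ : Divisor Qb (FB N),
      (∀ P, D₁ P = P.ord (⟨coeffMap A.subtype y₁, h₁⟩ : FB N)) →
      (∀ P, D₂ P = P.ord (⟨coeffMap A.subtype y₂, h₂⟩ : FB N)) → Φ D₁ = Φ D₂ →
      ∃ c : kk A, c ≠ 0 ∧ coeffMap (IsLocalRing.residue A) y₁
        = HahnSeries.C c * coeffMap (IsLocalRing.residue A) y₂

/-- the classes of the degree zero divisors killed by `Φ` -/
def K0 (N : ℕ) {ι : Type} (Φ : Divisor Qb (FB N) →+ (ι →₀ ℤ)) : AddSubgroup (JZero N) where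
  carrier := {x | ∃ D : Divisor.degZero (K := Qb) (F := FB N),
    Φ (D : Divisor Qb (FB N)) = 0 ∧ Pic0.mk D = x}
  zero_mem' := ⟨0, by simp, rfl⟩
  add_mem' := by
    rintro _ _ ⟨D, hD, rfl⟩ ⟨E, hE, rfl⟩
    exact ⟨D + E, by rw [AddSubgroup.coe_add, map_add, hD, hE, add_zero], rfl⟩
  neg_mem' := by
    rintro _ ⟨D, hD, rfl⟩
    exact ⟨-D, by rw [AddSubgroup.coe_neg, map_neg, hD, neg_zero], rfl⟩

end Fermat.Agent.S37Lib
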