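import Fermat.Agent.ES.Formal

/-!
# S37 (HN1): the Hecke polynomial `P_f(X) = (X - f(q^ℓ)) ∏_{z^ℓ = 1} (X - f(z q^{1/ℓ}))`

Proof.  `Q = ∏_{z : rootsOfUnity ℓ K} (X - C (twist z f))` is invariant under `twistHom w` on the
coefficients (`w ^ ℓ = 1`), so its coefficients are supported on `ℓ ℤ` (argument of
`prodTwist_coeff_of_not_dvd`) and `Q = Q₀.map (qExpand K ℓ)`.  For a constant `c`,
`qExpand (Q₀.eval (C c)) = Q.eval (C c) = prodTwist ℓ (C c - f) = qExpand (normL ℓ (C c - f))`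
(`qExpand_normL`) and `qExpand` is injective.  Take `P = (X - C (qExpand K ℓ f)) * Q₀`.
-/

set_option autoImplicit false
set_option synthInstance.maxHeartbeats 400000

open ModularCurve

namespace Fermat.Agent.S37Lib

open Fermat.Agent.ESLib

lemma heckePoly_coeff_eq_zero {K : Type*} [Field K] (ℓ : ℕ) [NeZero ℓ]
    (hζ : ∃ ζ : K, IsPrimitiveRoot ζ ℓ) (a : LaurentSeries K)
    (ha : ∀ w : rootsOfUnity ℓ K, twist (w : Kˣ) a = a) (n : ℤ) (hn : ¬ (ℓ : ℤ) ∣ n) :
    a.coeff n = 0 := by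
  obtain ⟨ζ, hζ⟩ := hζ
  have hu : IsUnit ζ := hζ.isUnit (NeZero.ne ℓ)
  obtain ⟨u, rfl⟩ := hu
  have hu' : IsPrimitiveRoot u ℓ := IsPrimitiveRoot.coe_units_iff.mp hζ
  have hmem : u ∈ rootsOfUnity ℓ K := by
    rw [mem_rootsOfUnity]; exact hu'.pow_eq_one
  have h := congrArg (fun x => HahnSeries.coeff x n) (ha ⟨u, hmem⟩)
  simp only [twist_coeff] at h
  have h1 : ((u ^ n : Kˣ) : K) ≠ 1 := by
    intro h2
    have h3 : u ^ n = 1 := Units.ext h2
    exact hn ((hu'.zpow_eq_one_iff_dvd n).mp h3)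
  have h4 : (((u ^ n : Kˣ) : K) - 1) * a.coeff n = 0 := by
    rw [sub_mul, h, one_mul, sub_self]
  exact (mul_eq_zero.mp h4).resolve_left (sub_ne_zero.mpr h1)

lemma heckePoly_twist_C {K : Type*} [Field K] (z : Kˣ) (c : K) :
    twist z (HahnSeries.C c) = HahnSeries.C c := by
  ext n
  rw [twist_coeff, HahnSeries.C_apply, HahnSeries.coeff_single]
  split_ifs with h
  · subst h; simp
  · simp

theorem exists_heckePoly {K : Type*} [Field K] (ℓ : ℕ) [NeZero ℓ]
    (hζ : ∃ ζ : K, IsPrimitiveRoot ζ ℓ) (f : LaurentSeries K) :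
    ∃ P : Polynomial (LaurentSeries K), P.Monic ∧ P.natDegree = ℓ + 1 ∧
      (∀ c : K, P.eval (HahnSeries.C c) = heckeMul ℓ (HahnSeries.C c - f)) ∧
      P.eval (qExpand K ℓ f) = 0 := by
  classical
  let _ : Fintype (rootsOfUnity ℓ K) := Fintype.ofFinite _
  set Q : Polynomial (LaurentSeries K) :=
    ∏ z : rootsOfUnity ℓ K, (Polynomial.X - Polynomial.C (twist (z : Kˣ) f)) with hQ
  have hQmonic : Q.Monic := Polynomial.monic_prod_of_monic _ _ fun z _ => Polynomial.monic_X_sub_C _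
  have hcard : Fintype.card (rootsOfUnity ℓ K) = ℓ := by
    obtain ⟨ζ, hζ'⟩ := hζ
    rw [← Nat.card_eq_fintype_card]
    exact hζ'.card_rootsOfUnity
  have hQdeg : Q.natDegree = ℓ := by
    rw [hQ, Polynomial.natDegree_prod_of_monic _ _ fun z _ => Polynomial.monic_X_sub_C _]
    simp [hcard]
  have hinv : ∀ w : rootsOfUnity ℓ K, Q.map (twistHom (w : Kˣ)) = Q := by
    intro w
    rw [hQ, Polynomial.map_prod]
    simp only [Polynomial.map_sub, Polynomial.map_X, Polynomial.map_C, twistHom_apply, twist_twist]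
    exact Fintype.prod_equiv (Equiv.mulLeft w)
      (fun z : rootsOfUnity ℓ K => Polynomial.X - Polynomial.C (twist ((w : Kˣ) * (z : Kˣ)) f))
      (fun z : rootsOfUnity ℓ K => Polynomial.X - Polynomial.C (twist (z : Kˣ) f)) fun z => rfl
  have hlift : Q ∈ Polynomial.lifts (qExpand K ℓ) := by
    rw [Polynomial.lifts_iff_coeff_lifts]
    intro i
    refine ⟨contract ℓ (Q.coeff i), qExpand_contract ℓ _ ?_⟩
    refine heckePoly_coeff_eq_zero ℓ hζ _ fun w => ?_
    have h := congrArg (fun p => Polynomial.coeff p i) (hinv w)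
    simpa only [Polynomial.coeff_map, twistHom_apply] using h
  obtain ⟨Q₀, hQ₀, hQ₀deg, hQ₀monic⟩ := Polynomial.lifts_and_natDegree_eq_and_monic hlift hQmonic
  have heval : ∀ c : K, Q₀.eval (HahnSeries.C c) = normL ℓ (HahnSeries.C c - f) := by
    intro c
    apply qExpand_injective (R := K) ℓ
    have h1 : qExpand K ℓ (Q₀.eval (HahnSeries.C c)) = Q.eval (HahnSeries.C c) := by
      rw [← hQ₀, Polynomial.eval_map, ← Polynomial.eval₂_at_apply, qExpand_C]
    rw [h1, qExpand_normL ℓ hζ, hQ, Polynomial.eval_prod]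
    unfold prodTwist
    refine Finset.prod_congr rfl fun z _ => ?_
    rw [Polynomial.eval_sub, Polynomial.eval_X, Polynomial.eval_C, ← twistHom_apply, ← twistHom_apply,
      map_sub, twistHom_apply, twistHom_apply, heckePoly_twist_C]
  refine ⟨(Polynomial.X - Polynomial.C (qExpand K ℓ f)) * Q₀,
    (Polynomial.monic_X_sub_C _).mul hQ₀monic, ?_, fun c => ?_, ?_⟩
  · rw [(Polynomial.monic_X_sub_C _).natDegree_mul hQ₀monic, Polynomial.natDegree_X_sub_C, hQ₀deg,
      hQdeg, add_comm]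
  · rw [Polynomial.eval_mul, heval, Polynomial.eval_sub, Polynomial.eval_X, Polynomial.eval_C,
      heckeMul, map_sub, qExpand_C]
  · rw [Polynomial.eval_mul, Polynomial.eval_sub, Polynomial.eval_X, Polynomial.eval_C, sub_self,
      zero_mul]

end Fermat.Agent.S37Lib
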