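import Fermat.Agent.S37.Defs
import Fermat.Agent.Lib.FF.Riemann

/-!
# S37 (NA): API of the `ℓ¹`-norm `nrm`
-/

set_option autoImplicit false

open AlgebraicCurve

namespace Fermat.Agent.S37Lib

open Fermat.Agent.S24Lib Fermat.Agent.FFLib

variable {ι κ : Type*}

theorem nrm_zero : nrm (0 : ι →₀ ℤ) = 0 := by
  simp [nrm]

lemma nrm_eq_sum (D : ι →₀ ℤ) (T : Finset ι) (hT : D.support ⊆ T) :
    nrm D = ∑ i ∈ T, (D i).natAbs :=
  Finsupp.sum_of_support_subset D hT _ (fun _ _ => by simp)

theorem nrm_eq_zero {D : ι →₀ ℤ} : nrm D = 0 ↔ D = 0 := by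
  constructor
  · intro h
    rw [nrm, Finsupp.sum, Finset.sum_eq_zero_iff] at h
    ext i
    by_cases hi : i ∈ D.support
    · simpa using h i hi
    · simpa using hi
  · rintro rfl
    exact nrm_zero

theorem nrm_single (i : ι) (n : ℤ) : nrm (Finsupp.single i n) = n.natAbs := by
  rw [nrm, Finsupp.sum_single_index]
  simp

theorem nrm_add_le (D E : ι →₀ ℤ) : nrm (D + E) ≤ nrm D + nrm E := by
  classical
  have hT1 : D.support ⊆ D.support ∪ E.support := Finset.subset_union_left
  have hT2 : E.support ⊆ D.support ∪ E.support := Finset.subset_union_right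
  rw [nrm_eq_sum (D + E) _ Finsupp.support_add, nrm_eq_sum D _ hT1, nrm_eq_sum E _ hT2,
    ← Finset.sum_add_distrib]
  exact Finset.sum_le_sum fun i _ => by
    rw [Finsupp.add_apply]
    exact Int.natAbs_add_le _ _

theorem nrm_neg (D : ι →₀ ℤ) : nrm (-D) = nrm D := by
  rw [nrm_eq_sum (-D) D.support (by rw [Finsupp.support_neg]), nrm_eq_sum D D.support subset_rfl]
  exact Finset.sum_congr rfl fun i _ => by rw [Finsupp.neg_apply, Int.natAbs_neg]

theorem nrm_sub_le (D E : ι →₀ ℤ) : nrm (D - E) ≤ nrm D + nrm E := by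
  rw [sub_eq_add_neg, ← nrm_neg E]
  exact nrm_add_le _ _

theorem nrm_zsmul (n : ℤ) (D : ι →₀ ℤ) : nrm (n • D) = n.natAbs * nrm D := by
  rw [nrm_eq_sum (n • D) D.support Finsupp.support_smul, nrm_eq_sum D D.support subset_rfl,
    Finset.mul_sum]
  exact Finset.sum_congr rfl fun i _ => by
    rw [Finsupp.smul_apply, smul_eq_mul, Int.natAbs_mul]

theorem nrm_nsmul (n : ℕ) (D : ι →₀ ℤ) : nrm (n • D) = n * nrm D := by
  rw [← natCast_zsmul, nrm_zsmul, Int.natAbs_natCast]

/-- an additive map which is bounded by `C` on the generators has operator norm `≤ C` -/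
theorem nrm_map_le (δ : (ι →₀ ℤ) →+ (κ →₀ ℤ)) (C : ℕ)
    (h : ∀ i, nrm (δ (Finsupp.single i 1)) ≤ C) (D : ι →₀ ℤ) : nrm (δ D) ≤ nrm D * C := by
  classical
  induction D using Finsupp.induction with
  | zero => simp [nrm_zero]
  | single_add i n D hi hn ih =>
    have h1 : nrm (Finsupp.single i n + D) = n.natAbs + nrm D := by
      have hs : (Finsupp.single i n + D).support ⊆ insert i D.support := by
        refine Finsupp.support_add.trans ?_
        intro j hj
        rcases Finset.mem_union.1 hj with hj | hj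
        · have := Finsupp.support_single_subset hj
          rw [Finset.mem_singleton] at this
          rw [this]; exact Finset.mem_insert_self _ _
        · exact Finset.mem_insert_of_mem hj
      rw [nrm_eq_sum _ _ hs, Finset.sum_insert hi, nrm_eq_sum D D.support subset_rfl]
      congr 1
      · rw [Finsupp.add_apply, Finsupp.single_eq_same, Finsupp.notMem_support_iff.1 hi, add_zero]
      · refine Finset.sum_congr rfl fun j hj => ?_
        have hji : j ≠ i := fun e => hi (e ▸ hj)
        rw [Finsupp.add_apply, Finsupp.single_eq_of_ne hji, zero_add]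
    have h2 : δ (Finsupp.single i n) = n • δ (Finsupp.single i 1) := by
      rw [← map_zsmul, Finsupp.smul_single, smul_eq_mul, mul_one]
    rw [map_add, h1, add_mul]
    refine (nrm_add_le _ _).trans (add_le_add ?_ ih)
    rw [h2, nrm_zsmul]
    exact Nat.mul_le_mul_left _ (h i)

theorem nrm_mapDomain_le (r : ι → κ) (D : ι →₀ ℤ) : nrm (D.mapDomain r) ≤ nrm D := by
  have h := nrm_map_le (Finsupp.mapDomain.addMonoidHom r : (ι →₀ ℤ) →+ (κ →₀ ℤ)) 1
    (fun i => by
      rw [Finsupp.mapDomain.addMonoidHom_apply, Finsupp.mapDomain_single, nrm_single]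
      simp) D
  simpa using h

/-- over an algebraically closed field the norm of an effective divisor is its degree -/
theorem nrm_eq_degree {K F : Type*} [Field K] [IsAlgClosed K] [Field F] [Algebra K F]
    (hF : IsFF K F) {D : Divisor K F} (hD : 0 ≤ D) : (nrm D : ℤ) = Divisor.degree D := by
  rw [degree_eq_sum hF D D.support subset_rfl, nrm_eq_sum D D.support subset_rfl]
  push_cast
  exact Finset.sum_congr rfl fun v _ => abs_of_nonneg (hD v)

end Fermat.Agent.S37Lib
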