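import Fermat.Agent.S37.BaseDeg
import Fermat.Agent.S37.BaseOps

/-!
# S37 (RH3): Deuring's reduction of divisors, from `RedData` and the equality of the genera

Let `c₀` be as in `base_degree`, and for `deg E ≥ c₀` let `E~` be the base divisor of
`V(E) = redSpace R hres (L(E))`; `deg E~ = deg E`.
* additivity: `E₁~ + E₂~ ≤ (E₁+E₂)~` (`base_add_le`) and equal degrees give equality
  (`eq_of_le_of_degree`).
* fix `E₀ = n₀ P₀` with `n₀ ≥ c₀`.  For a place `P`, `(E₀+P)~ - E₀~` is effective (`base_mono`) of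
  degree one: it is a place `r P` (`exists_eq_single`).
* by induction `(E₀ + D)~ = E₀~ + r_* D` for `D ≥ 0`
  (`(E₀+D+P)~ + E₀~ = (E₀+D)~ + (E₀+P)~` by additivity).
* `base_unit` with `E = E₀ + D₋`, `div u = D₊ - D₋`, gives `r_* (div u) = div (red u)`.
-/

set_option autoImplicit false

open AlgebraicCurve

namespace Fermat.Agent.S37Lib

open Fermat.Agent.S18Lib Fermat.Agent.S24Lib Fermat.Agent.FFLib

theorem exists_rho {K k F Ft : Type*} [Field K] [Field k] [Field F] [Algebra K F]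
    [Field Ft] [Algebra k Ft] [IsAlgClosed K] [IsAlgClosed k]
    (hF : IsFF K F) (hFt : IsFF k Ft)
    {A : ValuationSubring K} {resK : A →+* k} (hres : Function.Surjective resK)
    (R : RedData A resK F Ft) (g : ℤ)
    (hlow : ∀ E : Divisor K F, Divisor.degree E + 1 - g ≤ (FFLib.ell E : ℤ))
    (hup : ∀ c : ℤ, ∃ E : Divisor k Ft, c ≤ Divisor.degree E ∧
      (FFLib.ell E : ℤ) ≤ Divisor.degree E + 1 - g) :
    ∃ r : Place K F → Place k Ft, ∀ u : R.O, R.red u ≠ 0 → ∀ D : Divisor K F,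
      (∀ v, D v = v.ord ((u : R.O) : F)) →
      ∀ Q : Place k Ft, Finsupp.mapDomain r D Q = Q.ord (R.red u) := by
  classical
  obtain ⟨c₀, hc₀⟩ := base_degree hF hFt hres R g hlow hup
  set c₁ : ℤ := max c₀ 0 with hc₁
  have hc₁0 : 0 ≤ c₁ := le_max_right _ _
  have hc₁c : c₀ ≤ c₁ := le_max_left _ _
  have hex : ∀ E : Divisor K F, c₁ ≤ Divisor.degree E →
      ∃ B, IsBase (redSpace R hres (riemannRochSpace E)) B := fun E hE =>
    exists_isBase hF hFt hres R E (hc₀ E (hc₁c.trans hE)).1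
  let tl : Divisor K F → Divisor k Ft := fun E =>
    if h : c₁ ≤ Divisor.degree E then (hex E h).choose else 0
  have htl : ∀ E : Divisor K F, c₁ ≤ Divisor.degree E →
      IsBase (redSpace R hres (riemannRochSpace E)) (tl E) := by
    intro E hE
    show IsBase _ (if h : c₁ ≤ Divisor.degree E then (hex E h).choose else 0)
    rw [dif_pos hE]
    exact (hex E hE).choose_spec
  have hdeg : ∀ E : Divisor K F, c₁ ≤ Divisor.degree E →
      Divisor.degree (tl E) = Divisor.degree E := fun E hE =>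
    (hc₀ E (hc₁c.trans hE)).2 _ (htl E hE)
  have hadd : ∀ E₁ E₂ : Divisor K F, c₁ ≤ Divisor.degree E₁ → c₁ ≤ Divisor.degree E₂ →
      tl (E₁ + E₂) = tl E₁ + tl E₂ := by
    intro E₁ E₂ h₁ h₂
    have h₃ : c₁ ≤ Divisor.degree (E₁ + E₂) := by rw [map_add]; omega
    refine (eq_of_le_of_degree hFt (base_add_le hres R (htl _ h₁) (htl _ h₂) (htl _ h₃)) ?_).symm
    rw [map_add, hdeg _ h₁, hdeg _ h₂, hdeg _ h₃, map_add]
  obtain ⟨P₀⟩ := exists_place hF
  set E₀ : Divisor K F := Finsupp.single P₀ c₁ with hE₀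
  have hdE₀ : Divisor.degree E₀ = c₁ := degree_single' hF P₀ c₁
  have hbig : ∀ D : Divisor K F, 0 ≤ D → c₁ ≤ Divisor.degree (E₀ + D) := by
    intro D hD
    have := dg_degree_nonneg hF hD
    rw [map_add, hdE₀]
    omega
  have hE₀big : c₁ ≤ Divisor.degree E₀ := hdE₀.ge
  have hs0 : ∀ P : Place K F, (0 : Divisor K F) ≤ Finsupp.single P 1 := by
    intro P v
    rw [Finsupp.single_apply]
    split_ifs <;> simp
  have hr : ∀ P : Place K F, ∃ Q : Place k Ft,
      tl (E₀ + Finsupp.single P 1) = tl E₀ + Finsupp.single Q 1 := by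
    intro P
    have hle : tl E₀ ≤ tl (E₀ + Finsupp.single P 1) :=
      base_mono hres R (le_add_of_nonneg_right (hs0 P)) (htl _ hE₀big) (htl _ (hbig _ (hs0 P)))
    obtain ⟨Q, hQ⟩ := exists_eq_single hFt (B := tl (E₀ + Finsupp.single P 1) - tl E₀)
      (sub_nonneg.mpr hle) (by
        rw [map_sub, hdeg _ (hbig _ (hs0 P)), hdeg _ hE₀big, map_add, degree_single' hF P 1]
        ring)
    exact ⟨Q, by rw [← hQ]; abel⟩
  choose r hr using hr
  -- the set of good divisors is closed under addition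
  have hgood_add : ∀ D₁ D₂ : Divisor K F, 0 ≤ D₁ → 0 ≤ D₂ →
      tl (E₀ + D₁) = tl E₀ + Finsupp.mapDomain r D₁ →
      tl (E₀ + D₂) = tl E₀ + Finsupp.mapDomain r D₂ →
      tl (E₀ + (D₁ + D₂)) = tl E₀ + Finsupp.mapDomain r (D₁ + D₂) := by
    intro D₁ D₂ h₁ h₂ e₁ e₂
    have h3 := hadd (E₀ + D₁) (E₀ + D₂) (hbig _ h₁) (hbig _ h₂)
    have h4 := hadd (E₀ + (D₁ + D₂)) E₀ (hbig _ (add_nonneg h₁ h₂)) hE₀big
    have h5 : E₀ + D₁ + (E₀ + D₂) = E₀ + (D₁ + D₂) + E₀ := by abel
    rw [h5, h4, e₁, e₂] at h3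
    rw [Finsupp.mapDomain_add]
    have h6 : tl (E₀ + (D₁ + D₂)) + tl E₀
        = (tl E₀ + (Finsupp.mapDomain r D₁ + Finsupp.mapDomain r D₂)) + tl E₀ := by
      rw [h3]; abel
    exact add_right_cancel h6
  have hcast0 : ∀ D : Place K F →₀ ℕ,
      (0 : Divisor K F) ≤ D.mapRange (Nat.cast : ℕ → ℤ) Nat.cast_zero := by
    intro D v
    rw [Finsupp.mapRange_apply]
    exact Int.natCast_nonneg _
  have hgood : ∀ D : Place K F →₀ ℕ,
      tl (E₀ + D.mapRange (Nat.cast : ℕ → ℤ) Nat.cast_zero)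
        = tl E₀ + Finsupp.mapDomain r (D.mapRange (Nat.cast : ℕ → ℤ) Nat.cast_zero) := by
    intro D
    induction D using Finsupp.induction_linear with
    | zero => simp
    | add f g hf hg =>
      rw [Finsupp.mapRange_add (fun a b => Nat.cast_add a b)]
      exact hgood_add _ _ (hcast0 f) (hcast0 g) hf hg
    | single P n =>
      induction n with
      | zero => simp
      | succ n ih =>
        have e1 : (Finsupp.single P (n + 1)).mapRange (Nat.cast : ℕ → ℤ) Nat.cast_zero
            = (Finsupp.single P n).mapRange (Nat.cast : ℕ → ℤ) Nat.cast_zero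
              + Finsupp.single P 1 := by
          rw [Finsupp.mapRange_single, Finsupp.mapRange_single, ← Finsupp.single_add]
          push_cast
          rfl
        rw [e1]
        refine hgood_add _ _ (hcast0 _) (hs0 P) ih ?_
        rw [hr P, Finsupp.mapDomain_single]
  have hgood' : ∀ D : Divisor K F, 0 ≤ D → tl (E₀ + D) = tl E₀ + Finsupp.mapDomain r D := by
    intro D hD
    obtain ⟨D', hD'⟩ := ls_exists_nat hD
    rw [zero_add] at hD'
    rw [hD']
    exact hgood D'
  refine ⟨r, fun u hu D hD Q => ?_⟩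
  set x : F := ((u : R.O) : F) with hx
  have hz0 : (0 : Divisor K F) ≤ zeroDiv K x := by
    rw [dg_zeroDiv_eq hF]; exact dg_poleDiv_nonneg hF _
  have hp0 : (0 : Divisor K F) ≤ poleDiv K x := dg_poleDiv_nonneg hF _
  have hDeq : D = zeroDiv K x - poleDiv K x := by
    ext v
    rw [Finsupp.sub_apply, zeroDiv_apply hF, poleDiv_apply hF, hD v]
    rcases le_total 0 (v.ord x) with h | h
    · rw [max_eq_left h, max_eq_right (by omega)]; ring
    · rw [max_eq_right h, max_eq_left (by omega)]; ring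
  have hsum : E₀ + poleDiv K x + D = E₀ + zeroDiv K x := by rw [hDeq]; abel
  have hB' : IsBase (redSpace R hres (riemannRochSpace (E₀ + poleDiv K x + D)))
      (tl (E₀ + zeroDiv K x)) := by
    rw [hsum]; exact htl _ (hbig _ hz0)
  have key := base_unit hres R u hu D hD (htl _ (hbig _ hp0)) hB' Q
  rw [hgood' _ hz0, hgood' _ hp0, Finsupp.add_apply, Finsupp.add_apply] at key
  have hmd : Finsupp.mapDomain r D
      = Finsupp.mapDomain r (zeroDiv K x) - Finsupp.mapDomain r (poleDiv K x) := by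
    rw [hDeq]
    exact map_sub (Finsupp.mapDomain.addMonoidHom r) _ _
  rw [hmd, Finsupp.sub_apply]
  omega

end Fermat.Agent.S37Lib
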