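import Fermat.Agent.S37.Nrm
import Fermat.Agent.S37.Rho
import Fermat.Agent.S37.FEFund
import Fermat.Agent.S18.RedDataC
import Fermat.Agent.S18.RiemannLower
import Fermat.Agent.S18.FiniteFT
import Fermat.Agent.S18.ResField

/-!
# S37 (RF): existence of a reduction functional on the divisors of `X₀(N)`

Let `M = 2 N` (`ℓ ≠ 2`) or `M = 3 N` (`ℓ = 2`), so that `ℓ ∤ M` and the hypothesis `hup` (=
`S18Lib.riemann_upper`, not yet in main when this file was written) applies to `M`.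
`R, hR := exists_redData M`, `r := exists_rho` (with `isFF_FB M`, `isFF_FT A M`, `isAlgClosed_kk`,
`IsLocalRing.residue_surjective`, `riemann_lower M`, `hup`, `ell_eq_ell`) and
`Φ = (Finsupp.mapDomain.addMonoidHom r).comp (Divisor.pullbackAlong (inclusion (FB_le_of_dvd _)) _)`,
`ι = Place (kk A) (FT A M)`.
* `bdd`: `nrm_mapDomain_le`, `π^* P ≥ 0` has degree `[F_M : F_N]` (`Divisor.degree_pullbackAlong`,
  `fe_fundamental_along`, `nrm_eq_degree`).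
* `eq_of_red`, `red_of_eq`: `hR.int` for `y₁ y₂` seen in `FB M`; `π^* div y = div y`
  (`fe_pullbackAlong_ord`), `r_* div y = div (red y)`; a function of `FT A M` without zeros and poles is
  constant (`FFLib.mem_L_zero_iff`).
-/

set_option autoImplicit false
set_option synthInstance.maxHeartbeats 400000
set_option linter.style.haveILetI false

open AlgebraicCurve ModularCurve CongruenceSubgroup

namespace Fermat.Agent.S37Lib

open Fermat.Agent.S18Lib Fermat.Agent.S24Lib Fermat.Agent.ESLib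

/-- two functions with the same divisor differ by a nonzero constant -/
theorem RedFun_const {k Ft : Type*} [Field k] [IsAlgClosed k] [Field Ft] [Algebra k Ft]
    (hFt : IsFF k Ft) {z₁ z₂ : Ft} (h₁ : z₁ ≠ 0) (h₂ : z₂ ≠ 0)
    (h : ∀ Q : Place k Ft, Q.ord z₁ = Q.ord z₂) :
    ∃ c : k, c ≠ 0 ∧ z₁ = algebraMap k Ft c * z₂ := by
  have hmem : z₁ / z₂ ∈ riemannRochSpace (0 : Divisor k Ft) := by
    rw [FFLib.mem_L_iff]
    intro Q
    right
    rw [div_eq_mul_inv, Q.ord_mul h₁ (inv_ne_zero h₂), Q.ord_inv, h Q]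
    simp
  rw [FFLib.mem_L_zero_iff hFt] at hmem
  obtain ⟨c, hc⟩ := hmem
  refine ⟨c, ?_, ?_⟩
  · rintro rfl
    rw [map_zero] at hc
    exact div_ne_zero h₁ h₂ hc.symm
  · rw [hc, div_mul_cancel₀ _ h₂]

/-- the abstract part: a reduction functional from `RedData` at a higher level `M` -/
theorem RedFun_of_rho {N M : ℕ} [NeZero N] [NeZero M] (hle : FB N ≤ FB M)
    (A : ValuationSubring Qb) (R : RedData A (IsLocalRing.residue A) (FB M) (FT A M))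
    (hR : IsQRed A M R) (ρ : Place Qb (FB M) → Place (kk A) (FT A M))
    (hρ : ∀ u : R.O, R.red u ≠ 0 → ∀ D : Divisor Qb (FB M),
      (∀ v, D v = v.ord ((u : R.O) : FB M)) →
      ∀ Q : Place (kk A) (FT A M), Finsupp.mapDomain ρ D Q = Q.ord (R.red u)) :
    ∃ (ι : Type) (Φ : Divisor Qb (FB N) →+ (ι →₀ ℤ)), IsRedFun A N Φ := by
  classical
  have hFN := isFF_FB N
  have hFM := isFF_FB M
  have hFt := isFF_FT A M
  haveI := isAlgClosed_kk A
  obtain ⟨φ, hφdef⟩ : ∃ φ : FB N →ₐ[Qb] FB M, φ = IntermediateField.inclusion hle := ⟨_, rfl⟩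
  have hφ := fe_isIntegral_along hFN hFM φ
  haveI := FFLib.hasPrincipalDivisors hFM
  obtain ⟨Φ, hΦdef⟩ : ∃ Φ : Divisor Qb (FB N) →+ (Place (kk A) (FT A M) →₀ ℤ),
      Φ = (Finsupp.mapDomain.addMonoidHom ρ).comp (Divisor.pullbackAlong φ hφ) := ⟨_, rfl⟩
  have hΦ : ∀ D, Φ D = Finsupp.mapDomain ρ (Divisor.pullbackAlong φ hφ D) := by
    intro D; rw [hΦdef]; rfl
  have hcore : ∀ (y : LaurentSeries A) (hy : coeffMap A.subtype y ∈ FB N),
      coeffMap (IsLocalRing.residue A) y ≠ 0 → ∀ D : Divisor Qb (FB N),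
      (∀ P, D P = P.ord (⟨coeffMap A.subtype y, hy⟩ : FB N)) →
      ∃ z : FT A M, (z : LaurentSeries (kk A)) = coeffMap (IsLocalRing.residue A) y ∧
        ∀ Q, Φ D Q = Q.ord z := by
    intro y hy hne D hD
    obtain ⟨hO, hred⟩ := hR.int y (hle hy)
    refine ⟨_, hred, fun Q => ?_⟩
    rw [hΦ]
    refine hρ ⟨⟨coeffMap A.subtype y, hle hy⟩, hO⟩ ?_ _ ?_ Q
    · intro h0
      apply hne
      rw [← hred, h0]
      rfl
    · intro w
      rw [fe_pullbackAlong_ord φ hφ hD w, hφdef]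
      rfl
  refine ⟨Place (kk A) (FT A M), Φ, ?_, ?_, ?_⟩
  · refine ⟨finrankAlong Qb φ, fun P => ?_⟩
    rw [hΦ]
    refine (nrm_mapDomain_le ρ _).trans ?_
    have h0 : (0 : Divisor Qb (FB N)) ≤ Finsupp.single P 1 := by
      intro v
      rw [Finsupp.single_apply]
      split_ifs <;> simp
    have h1 := nrm_eq_degree hFM (fe_pullbackAlong_nonneg φ hφ h0)
    rw [Divisor.degree_pullbackAlong φ hφ (fe_fundamental_along hFN hFM φ hφ),
      FFLib.degree_single' hFN, mul_one] at h1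
    exact le_of_eq (by exact_mod_cast h1)
  · intro y₁ y₂ h₁ h₂ hne heq D₁ D₂ hD₁ hD₂
    obtain ⟨z₁, hz₁, hQ₁⟩ := hcore y₁ h₁ (heq ▸ hne) D₁ hD₁
    obtain ⟨z₂, hz₂, hQ₂⟩ := hcore y₂ h₂ hne D₂ hD₂
    have hz : z₁ = z₂ := Subtype.ext (by rw [hz₁, hz₂, heq])
    ext Q
    rw [hQ₁, hQ₂, hz]
  · intro y₁ y₂ h₁ h₂ hne₁ hne₂ D₁ D₂ hD₁ hD₂ heq
    obtain ⟨z₁, hz₁, hQ₁⟩ := hcore y₁ h₁ hne₁ D₁ hD₁
    obtain ⟨z₂, hz₂, hQ₂⟩ := hcore y₂ h₂ hne₂ D₂ hD₂
    have hz₁0 : z₁ ≠ 0 := fun h => hne₁ (by rw [← hz₁, h]; rfl)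
    have hz₂0 : z₂ ≠ 0 := fun h => hne₂ (by rw [← hz₂, h]; rfl)
    obtain ⟨c, hc, hcz⟩ := RedFun_const hFt hz₁0 hz₂0 (fun Q => by rw [← hQ₁, ← hQ₂, heq])
    refine ⟨c, hc, ?_⟩
    rw [← hz₁, ← hz₂, hcz, ← FFLib.algebraMap_eq_C]
    rfl

theorem exists_redFun (N : ℕ) [NeZero N] {ℓ : ℕ} [Fact ℓ.Prime] (hℓN : ¬ ℓ ∣ N)
    (A : ValuationSubring Qb) (hA : A.LiesOverPrime ℓ)
    (hup : ∀ (M : ℕ) [NeZero M], ¬ ℓ ∣ M → (2 ∣ M ∨ 3 ∣ M) → ∀ c : ℤ,
      ∃ E : Divisor (kk A) (FT A M), c ≤ Divisor.degree E ∧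
        ell E ≤ Divisor.degree E + 1 - (Module.finrank ℂ (CuspForm (Gamma0 M) 2) : ℤ)) :
    ∃ (ι : Type) (Φ : Divisor Qb (FB N) →+ (ι →₀ ℤ)), IsRedFun A N Φ := by
  have hℓ : ℓ.Prime := Fact.out
  obtain ⟨r, hr, hrℓ, hr23⟩ : ∃ r : ℕ, r.Prime ∧ r ≠ ℓ ∧ (r = 2 ∨ r = 3) := by
    by_cases h : ℓ = 2
    · exact ⟨3, Nat.prime_three, by omega, Or.inr rfl⟩
    · exact ⟨2, Nat.prime_two, fun h' => h h'.symm, Or.inl rfl⟩
  haveI : NeZero (r * N) := ⟨Nat.mul_ne_zero hr.ne_zero (NeZero.ne N)⟩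
  have hℓM : ¬ ℓ ∣ r * N := by
    intro h
    rcases (Nat.Prime.dvd_mul hℓ).mp h with h | h
    · exact hrℓ ((Nat.prime_dvd_prime_iff_eq hℓ hr).mp h).symm
    · exact hℓN h
  have h23 : 2 ∣ r * N ∨ 3 ∣ r * N := by
    rcases hr23 with rfl | rfl
    · exact Or.inl (dvd_mul_right _ _)
    · exact Or.inr (dvd_mul_right _ _)
  have hle : FB N ≤ FB (r * N) := FB_le_of_dvd (dvd_mul_left N r)
  obtain ⟨R, hR⟩ := exists_redData (r * N) hℓM A hA
  haveI := isAlgClosed_kk A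
  obtain ⟨ρ, hρ⟩ := exists_rho (isFF_FB (r * N)) (isFF_FT A (r * N))
    (IsLocalRing.residue_surjective (R := A)) R
    (Module.finrank ℂ (CuspForm (Gamma0 (r * N)) 2) : ℤ)
    (fun E => by rw [← ell_eq_ell]; exact riemann_lower (r * N) E)
    (fun c => by
      obtain ⟨E, h1, h2⟩ := hup (r * N) hℓM h23 c
      exact ⟨E, h1, by rw [← ell_eq_ell]; exact h2⟩)
  exact RedFun_of_rho hle A R hR ρ hρ

end Fermat.Agent.S37Lib
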