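import Fermat.Agent.S37.Nrm

/-!
# S37 (RG): rigidity.  An additive map from the divisors of a curve to a free abelian group which
is bounded on the places and kills the principal divisors kills all divisors of degree zero.

Proof.  Let `g = genusR K F`, `P₀ P₁` two places and `d : ℕ`.  By `FFLib.riemann_inequality`
`L((d+g) P₀ - d P₁) ≠ 0`: there is `f ≠ 0` with `div f = d P₁ - (d+g) P₀ + R`, `R ≥ 0` of degree
`g`.  Hence `d (δ P₁ - δ P₀) = g δ P₀ - δ R` has norm `≤ 2 g C` for every `d`, so `δ P₁ = δ P₀`.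
-/

set_option autoImplicit false

open AlgebraicCurve

namespace Fermat.Agent.S37Lib

open Fermat.Agent.S24Lib Fermat.Agent.FFLib

lemma rigid_aux {K F : Type*} [Field K] [IsAlgClosed K] [Field F] [Algebra K F] (hF : IsFF K F)
    {ι : Type*} (δ : Divisor K F →+ (ι →₀ ℤ)) (C : ℕ)
    (hC : ∀ P : Place K F, nrm (δ (Finsupp.single P 1)) ≤ C)
    (hprin : ∀ D : Divisor K F, Divisor.IsPrincipal D → δ D = 0)
    (P₀ P₁ : Place K F) (d : ℕ) :
    d * nrm (δ (Finsupp.single P₁ 1) - δ (Finsupp.single P₀ 1)) ≤ 2 * (genusR K F * C) := by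
  set g := genusR K F with hg
  set A : Divisor K F := Finsupp.single P₀ ((d : ℤ) + g) - Finsupp.single P₁ (d : ℤ) with hA
  have hdegA : Divisor.degree A = g := by
    rw [hA, map_sub, degree_single' hF, degree_single' hF]; ring
  have hell : 0 < ell A := by
    have := riemann_inequality hF A
    rw [hdegA] at this
    omega
  obtain ⟨⟨f, hfL⟩, hf0⟩ : ∃ f : riemannRochSpace A, f ≠ 0 := by
    have : Nontrivial (riemannRochSpace A) := Module.nontrivial_of_finrank_pos hell
    exact exists_ne 0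
  have hf : f ≠ 0 := fun e => hf0 (Subtype.ext e)
  set R : Divisor K F := divOf K f + A with hR
  have hR0 : 0 ≤ R := by
    intro v
    rw [hR, Finsupp.add_apply, divOf_apply hF]
    rcases (mem_riemannRochSpace_iff.1 hfL) v with h | h
    · exact absurd h hf
    · simp only [Finsupp.coe_zero, Pi.zero_apply]; linarith
  have hdegR : Divisor.degree R = g := by
    rw [hR, map_add, degree_divOf hF, hdegA, zero_add]
  have hδ : δ (divOf K f) = 0 := hprin _ ⟨f, hf, fun v => divOf_apply hF f v⟩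
  have hδR : δ R = δ A := by rw [hR, map_add, hδ, zero_add]
  have hs : ∀ (P : Place K F) (n : ℤ), δ (Finsupp.single P n) = n • δ (Finsupp.single P 1) := by
    intro P n
    rw [← map_zsmul, Finsupp.smul_single, smul_eq_mul, mul_one]
  have key : (d : ℤ) • (δ (Finsupp.single P₁ 1) - δ (Finsupp.single P₀ 1)) =
      (g : ℤ) • δ (Finsupp.single P₀ 1) - δ R := by
    rw [hδR, hA, map_sub, hs P₀ ((d : ℤ) + g), hs P₁ (d : ℤ), add_smul, smul_sub]
    abel
  have h1 : nrm ((d : ℤ) • (δ (Finsupp.single P₁ 1) - δ (Finsupp.single P₀ 1))) =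
      d * nrm (δ (Finsupp.single P₁ 1) - δ (Finsupp.single P₀ 1)) := by
    rw [nrm_zsmul, Int.natAbs_natCast]
  rw [← h1, key]
  refine (nrm_sub_le _ _).trans ?_
  have h2 : nrm ((g : ℤ) • δ (Finsupp.single P₀ 1)) ≤ g * C := by
    rw [nrm_zsmul, Int.natAbs_natCast]
    exact Nat.mul_le_mul_left _ (hC P₀)
  have h3 : nrm (δ R) ≤ g * C := by
    have hn : nrm R = g := by
      have := nrm_eq_degree hF hR0
      rw [hdegR] at this
      exact_mod_cast this
    have := nrm_map_le δ C hC R
    rwa [hn] at this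
  omega

theorem rigid {K F : Type*} [Field K] [IsAlgClosed K] [Field F] [Algebra K F] (hF : IsFF K F)
    {ι : Type*} (δ : Divisor K F →+ (ι →₀ ℤ)) (C : ℕ)
    (hC : ∀ P : Place K F, nrm (δ (Finsupp.single P 1)) ≤ C)
    (hprin : ∀ D : Divisor K F, Divisor.IsPrincipal D → δ D = 0)
    (D : Divisor K F) (hD : Divisor.degree D = 0) : δ D = 0 := by
  classical
  have heq : ∀ P₀ P₁ : Place K F, δ (Finsupp.single P₁ 1) = δ (Finsupp.single P₀ 1) := by
    intro P₀ P₁
    have h := rigid_aux hF δ C hC hprin P₀ P₁ (2 * (genusR K F * C) + 1)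
    have h0 : nrm (δ (Finsupp.single P₁ 1) - δ (Finsupp.single P₀ 1)) = 0 := by
      by_contra hne
      have hpos : 1 ≤ nrm (δ (Finsupp.single P₁ 1) - δ (Finsupp.single P₀ 1)) :=
        Nat.one_le_iff_ne_zero.2 hne
      have h3 := Nat.mul_le_mul_left (2 * (genusR K F * C) + 1) hpos
      omega
    exact sub_eq_zero.1 (nrm_eq_zero.1 h0)
  rcases D.support.eq_empty_or_nonempty with he | ⟨P₀, -⟩
  · rw [Finsupp.support_eq_empty.1 he, map_zero]
  have h1 : D = ∑ v ∈ D.support, Finsupp.single v (D v) := (Finsupp.sum_single D).symm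
  have h2 : δ D = ∑ v ∈ D.support, (D v) • δ (Finsupp.single P₀ 1) := by
    conv_lhs => rw [h1]
    rw [map_sum]
    refine Finset.sum_congr rfl fun v _ => ?_
    rw [← heq P₀ v, ← map_zsmul, Finsupp.smul_single, smul_eq_mul, mul_one]
  rw [h2, ← Finset.sum_smul, ← degree_eq_sum hF D D.support subset_rfl, hD, zero_smul]

end Fermat.Agent.S37Lib
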